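/-
S14 / Z1 (helper2): partial zeta functions of ideal classes — common definitions.

`tent`, `tentPi` : tent functions (Lipschitz partition of unity for `ℤ^r ⊂ ℝ^r`).
`logCoord K`     : coordinates of `logSpace K` with respect to `basisUnitLattice K`.
`weight K x`     : smooth "fundamental domain" weight on the mixed space
                   (`∑ over units u, weight (u • x) = torsionOrder K`).
`Fs K s x`       : `weight K x * (mixedEmbedding.norm x) ^ (-s)`.
`partialZeta K C s` : `∑' I ∈ C, (absNorm I)^(-s)` (real `s`).
-/
import Mathlib

set_option autoImplicit false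

open NumberField NumberField.mixedEmbedding NumberField.Units NumberField.InfinitePlace
open scoped nonZeroDivisors

namespace Fermat.Agent.S14.Zeta

/-- The tent function `max 0 (1 - |t|)`. -/
noncomputable def tent (t : ℝ) : ℝ := max 0 (1 - |t|)

/-- Product of tent functions. -/
noncomputable def tentPi {ι : Type*} [Fintype ι] (c : ι → ℝ) : ℝ := ∏ i, tent (c i)

variable (K : Type*) [Field K] [NumberField K]

open scoped Classical in
/-- Coordinates on `logSpace K` with respect to the `ℝ`-basis coming from `basisUnitLattice K`. -/
noncomputable def logCoord :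
    dirichletUnitTheorem.logSpace K ≃ₗ[ℝ] (Fin (NumberField.Units.rank K) → ℝ) :=
  ((basisUnitLattice K).ofZLatticeBasis ℝ (unitLattice K)).equivFun

/-- The weight on `logSpace K`: product of tent functions of the lattice coordinates. -/
noncomputable def weight0 (y : dirichletUnitTheorem.logSpace K) : ℝ := tentPi (logCoord K y)

/-- The weight on the mixed space. -/
noncomputable def weight (x : mixedSpace K) : ℝ :=
  if mixedEmbedding.norm x = 0 then 0 else weight0 K (logMap x)

/-- The weighted summand `weight x * N(x)^(-s)`. -/
noncomputable def Fs (s : ℝ) (x : mixedSpace K) : ℝ :=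
  weight K x * (mixedEmbedding.norm x) ^ (-s)

/-- The partial zeta function of the ideal class `C` at the real point `s`. -/
noncomputable def partialZeta (C : ClassGroup (𝓞 K)) (s : ℝ) : ℝ :=
  ∑' I : {I : (Ideal (𝓞 K))⁰ // ClassGroup.mk0 I = C}, ((Ideal.absNorm (I.1 : Ideal (𝓞 K)) : ℝ)) ^ (-s)

/-- The lattice sum `∑_{α ∈ J} Fs s (mixedEmbedding α)` for an ideal `J` (the term `α = 0` is `0`). -/
noncomputable def latticeSum (J : Ideal (𝓞 K)) (s : ℝ) : ℝ :=
  ∑' a : J, Fs K s (mixedEmbedding K ((a : 𝓞 K) : K))

end Fermat.Agent.S14.Zeta
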