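/-
S14 / Z1.f (helper70): partial zeta function of an ideal class — summability for `s > 1` and
the residue `(s - 1) ζ(s, C) → dedekindZeta_residue K / classNumber K` as `s → 1⁺`
(the Mathlib proof of the class number formula, class by class).
-/
import Mathlib
import Fermat.Agent.S14.Zeta.Defs

set_option autoImplicit false

open Filter Topology NumberField NumberField.InfinitePlace NumberField.Units
open scoped nonZeroDivisors

namespace Fermat.Agent.S14.Zeta

/-! ### Abstract part: a counting function with finite fibres -/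

section Abstract

variable {T : Type*} (N : T → ℕ)

/-- The number of `t` with `N t = n`, as a real number. -/
noncomputable def fibreCount (n : ℕ) : ℝ := (Nat.card {t : T // N t = n} : ℝ)

theorem fibreCount_nonneg (n : ℕ) : 0 ≤ fibreCount N n := Nat.cast_nonneg _

/-- The `n`-th term of the Dirichlet series `∑ fibreCount n / n ^ s`, for real `s`. -/
theorem term_fibreCount {s : ℝ} (hs : 0 < s) (n : ℕ) :
    LSeries.term (fun n => ((fibreCount N n : ℝ) : ℂ)) (s : ℂ) n =
      ((fibreCount N n * (n : ℝ) ^ (-s) : ℝ) : ℂ) := by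
  rcases eq_or_ne n 0 with rfl | hn
  · rw [LSeries.term_zero, Nat.cast_zero, Real.zero_rpow (neg_ne_zero.mpr hs.ne'), mul_zero,
      Complex.ofReal_zero]
  · rw [LSeries.term_of_ne_zero hn, Real.rpow_neg (Nat.cast_nonneg n), Complex.ofReal_mul,
      Complex.ofReal_inv, Complex.ofReal_cpow (Nat.cast_nonneg n), Complex.ofReal_natCast,
      div_eq_mul_inv]

theorem summable_fibreCount_mul {s : ℝ} (hs : 0 < s)
    (hS : LSeriesSummable (fun n => ((fibreCount N n : ℝ) : ℂ)) (s : ℂ)) :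
    Summable fun n : ℕ => fibreCount N n * (n : ℝ) ^ (-s) := by
  rw [LSeriesSummable, funext (term_fibreCount N hs)] at hS
  exact Complex.summable_ofReal.mp hS

theorem lSeries_fibreCount {s : ℝ} (hs : 0 < s) :
    LSeries (fun n => ((fibreCount N n : ℝ) : ℂ)) (s : ℂ) =
      ((∑' n : ℕ, fibreCount N n * (n : ℝ) ^ (-s) : ℝ) : ℂ) := by
  rw [LSeries, funext (term_fibreCount N hs), Complex.ofReal_tsum]

variable (hfin : ∀ n, Finite {t : T // N t = n})
include hfin

theorem summable_sigma_fibre {s : ℝ}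
    (hS : Summable fun n : ℕ => fibreCount N n * (n : ℝ) ^ (-s)) :
    Summable fun p : (Σ n : ℕ, {t : T // N t = n}) => ((p.1 : ℕ) : ℝ) ^ (-s) := by
  rw [summable_sigma_of_nonneg (fun p => Real.rpow_nonneg (Nat.cast_nonneg _) _)]
  refine ⟨fun n => ?_, ?_⟩
  · have := hfin n
    exact Summable.of_finite
  · refine hS.congr fun n => ?_
    show _ = ∑' _ : {t : T // N t = n}, (n : ℝ) ^ (-s)
    rw [tsum_const, nsmul_eq_mul, fibreCount]

theorem summable_rpow_of_fibre {s : ℝ}
    (hS : Summable fun n : ℕ => fibreCount N n * (n : ℝ) ^ (-s)) :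
    Summable fun t : T => (N t : ℝ) ^ (-s) := by
  have h := summable_sigma_fibre N hfin hS
  have := (Equiv.sigmaFiberEquiv N).symm.summable_iff.mpr h
  refine this.congr fun t => ?_
  simp [Equiv.sigmaFiberEquiv]

theorem tsum_rpow_of_fibre {s : ℝ}
    (hS : Summable fun n : ℕ => fibreCount N n * (n : ℝ) ^ (-s)) :
    ∑' t : T, (N t : ℝ) ^ (-s) = ∑' n : ℕ, fibreCount N n * (n : ℝ) ^ (-s) := by
  have h := summable_sigma_fibre N hfin hS
  have e1 : ∑' t : T, (N t : ℝ) ^ (-s) =
      ∑' p : (Σ n : ℕ, {t : T // N t = n}), ((p.1 : ℕ) : ℝ) ^ (-s) := by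
    rw [← (Equiv.sigmaFiberEquiv N).symm.tsum_eq]
    refine tsum_congr fun t => ?_
    simp [Equiv.sigmaFiberEquiv]
  rw [e1, h.tsum_sigma' (fun n => by have := hfin n; exact Summable.of_finite)]
  refine tsum_congr fun n => ?_
  show ∑' _ : {t : T // N t = n}, (n : ℝ) ^ (-s) = _
  rw [tsum_const, nsmul_eq_mul, fibreCount]

omit hfin in
theorem card_le_eq_sum_fibre (hfin : ∀ n, Finite {t : T // N t = n}) (hpos : ∀ t, N t ≠ 0)
    (n : ℕ) :
    Nat.card {t : T // N t ≤ n} = ∑ k ∈ Finset.Icc 1 n, Nat.card {t : T // N t = k} := by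
  rw [← Finset.card_preimage_eq_sum_card_image_eq (f := N) (s := Finset.Icc 1 n)
    (fun k _ => Set.finite_coe_iff.mp (hfin k))]
  refine Nat.card_congr (Equiv.subtypeEquivRight fun t => ?_)
  simp only [Set.mem_preimage, Finset.coe_Icc, Set.mem_Icc]
  exact ⟨fun h => ⟨Nat.one_le_iff_ne_zero.mpr (hpos t), h⟩, fun h => h.2⟩

end Abstract

/-! ### The number field part -/

section NumberField

variable (K : Type*) [Field K] [NumberField K]

/-- The norm on the nonzero ideals of the class `C`. -/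
noncomputable def classNorm (C : ClassGroup (𝓞 K))
    (I : {I : (Ideal (𝓞 K))⁰ // ClassGroup.mk0 I = C}) : ℕ :=
  Ideal.absNorm (I.1 : Ideal (𝓞 K))

theorem classNorm_ne_zero (C : ClassGroup (𝓞 K))
    (I : {I : (Ideal (𝓞 K))⁰ // ClassGroup.mk0 I = C}) : classNorm K C I ≠ 0 :=
  Ideal.absNorm_ne_zero_of_nonZeroDivisors I.1

theorem finite_classNorm_fibre (C : ClassGroup (𝓞 K)) (n : ℕ) :
    Finite {I : {I : (Ideal (𝓞 K))⁰ // ClassGroup.mk0 I = C} // classNorm K C I = n} := by
  have hfin : Finite {I : Ideal (𝓞 K) // Ideal.absNorm I = n} :=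
    Set.finite_coe_iff.mpr (Ideal.finite_setOfPred_absNorm_eq n)
  refine Finite.of_injective
    (fun I => (⟨(I.1.1 : Ideal (𝓞 K)), I.2⟩ : {I : Ideal (𝓞 K) // Ideal.absNorm I = n})) ?_
  intro I J hIJ
  have h : ((I.1.1 : (Ideal (𝓞 K))⁰) : Ideal (𝓞 K)) = (J.1.1 : Ideal (𝓞 K)) :=
    congrArg (fun x : {I : Ideal (𝓞 K) // Ideal.absNorm I = n} => x.1) hIJ
  exact Subtype.ext (Subtype.ext (Subtype.ext h))

/-- The coefficients of the partial zeta function of the class `C`. -/
noncomputable def classCount (C : ClassGroup (𝓞 K)) (n : ℕ) : ℝ :=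
  fibreCount (classNorm K C) n

theorem classCount_nonneg (C : ClassGroup (𝓞 K)) (n : ℕ) : 0 ≤ classCount K C n :=
  fibreCount_nonneg _ n

/-- The counting function of the class `C` in terms of the coefficients. -/
theorem card_norm_le_and_mk_eq (C : ClassGroup (𝓞 K)) (n : ℕ) :
    (Nat.card {I : (Ideal (𝓞 K))⁰ //
      (Ideal.absNorm (I : Ideal (𝓞 K)) : ℝ) ≤ (n : ℝ) ∧ ClassGroup.mk0 I = C} : ℝ) =
      ∑ k ∈ Finset.Icc 1 n, classCount K C k := by
  have e : {I : (Ideal (𝓞 K))⁰ //
      (Ideal.absNorm (I : Ideal (𝓞 K)) : ℝ) ≤ (n : ℝ) ∧ ClassGroup.mk0 I = C} ≃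
      {I : {I : (Ideal (𝓞 K))⁰ // ClassGroup.mk0 I = C} // classNorm K C I ≤ n} :=
    { toFun := fun I => ⟨⟨I.1, I.2.2⟩, Nat.cast_le.mp I.2.1⟩
      invFun := fun I => ⟨I.1.1, Nat.cast_le.mpr I.2, I.1.2⟩
      left_inv := fun _ => rfl
      right_inv := fun _ => rfl }
  rw [Nat.card_congr e, card_le_eq_sum_fibre (classNorm K C) (finite_classNorm_fibre K C)
    (classNorm_ne_zero K C), Nat.cast_sum]
  rfl

theorem tendsto_sum_classCount_div (C : ClassGroup (𝓞 K)) :
    Tendsto (fun n : ℕ => (∑ k ∈ Finset.Icc 1 n, classCount K C k) / (n : ℝ)) atTop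
      (𝓝 (dedekindZeta_residue K / classNumber K)) := by
  have h := (NumberField.Ideal.tendsto_norm_le_and_mk_eq_div_atTop K C).comp
    tendsto_natCast_atTop_atTop
  have hL : dedekindZeta_residue K / classNumber K =
      (2 ^ nrRealPlaces K * (2 * Real.pi) ^ nrComplexPlaces K * regulator K) /
        (torsionOrder K * Real.sqrt |discr K|) := by
    have h1 : (classNumber K : ℝ) ≠ 0 := Nat.cast_ne_zero.mpr (classNumber_pos K).ne'
    rw [dedekindZeta_residue_def, div_div, mul_comm _ (classNumber K : ℝ), ← div_div,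
      mul_div_assoc, mul_comm, mul_div_assoc, div_self h1, mul_one]
  rw [hL]
  refine h.congr fun n => ?_
  simp only [Function.comp_apply]
  rw [card_norm_le_and_mk_eq]

theorem lSeriesSummable_classCount (C : ClassGroup (𝓞 K)) {s : ℝ} (hs : 1 < s) :
    LSeriesSummable (fun n => ((classCount K C n : ℝ) : ℂ)) (s : ℂ) := by
  refine LSeriesSummable_of_sum_norm_bigO_and_nonneg ?_ (classCount_nonneg K C) zero_le_one
    (by simpa using hs)
  exact Asymptotics.isBigO_atTop_natCast_rpow_of_tendsto_div_rpow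
    (by simpa using tendsto_sum_classCount_div K C)

theorem summable_classCount_mul (C : ClassGroup (𝓞 K)) {s : ℝ} (hs : 1 < s) :
    Summable fun n : ℕ => classCount K C n * (n : ℝ) ^ (-s) :=
  summable_fibreCount_mul _ (by linarith) (lSeriesSummable_classCount K C hs)

/-- **Z1.f (1)**: the partial zeta function of a class converges for `s > 1`. -/
theorem summable_partialZeta (C : ClassGroup (𝓞 K)) {s : ℝ} (hs : 1 < s) :
    Summable (fun I : {I : (Ideal (𝓞 K))⁰ // ClassGroup.mk0 I = C} =>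
      ((Ideal.absNorm (I.1 : Ideal (𝓞 K)) : ℝ)) ^ (-s)) :=
  summable_rpow_of_fibre (classNorm K C) (finite_classNorm_fibre K C)
    (summable_classCount_mul K C hs)

/-- The partial zeta function as a Dirichlet series in the coefficients `classCount`. -/
theorem partialZeta_eq_tsum (C : ClassGroup (𝓞 K)) {s : ℝ} (hs : 1 < s) :
    partialZeta K C s = ∑' n : ℕ, classCount K C n * (n : ℝ) ^ (-s) :=
  tsum_rpow_of_fibre (classNorm K C) (finite_classNorm_fibre K C)
    (summable_classCount_mul K C hs)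

theorem lSeries_classCount (C : ClassGroup (𝓞 K)) {s : ℝ} (hs : 1 < s) :
    LSeries (fun n => ((classCount K C n : ℝ) : ℂ)) (s : ℂ) = ((partialZeta K C s : ℝ) : ℂ) := by
  rw [partialZeta_eq_tsum K C hs]
  exact lSeries_fibreCount _ (by linarith)

theorem partialZeta_nonneg (C : ClassGroup (𝓞 K)) (s : ℝ) : 0 ≤ partialZeta K C s :=
  tsum_nonneg fun _ => Real.rpow_nonneg (Nat.cast_nonneg _) _

/-- **Z1.f (2)**: `(s - 1) ζ(s, C) → dedekindZeta_residue K / classNumber K` as `s → 1⁺`. -/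
theorem tendsto_sub_one_mul_partialZeta (C : ClassGroup (𝓞 K)) :
    Tendsto (fun s : ℝ => (s - 1) * partialZeta K C s) (𝓝[>] 1)
      (𝓝 (dedekindZeta_residue K / classNumber K)) := by
  have h := LSeries_tendsto_sub_mul_nhds_one_of_tendsto_sum_div_and_nonneg (classCount K C)
    (tendsto_sum_classCount_div K C) (classCount_nonneg K C)
  have h2 := (Complex.continuous_re.tendsto _).comp h
  rw [Complex.ofReal_re] at h2
  refine h2.congr' ?_
  filter_upwards [self_mem_nhdsWithin] with s hs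
  simp only [Function.comp_apply]
  rw [lSeries_classCount K C hs, ← Complex.ofReal_one, ← Complex.ofReal_sub,
    ← Complex.ofReal_mul, Complex.ofReal_re]

/-- The Dedekind zeta function at a real point, as a sum over the nonzero ideals. -/
noncomputable def zetaR (s : ℝ) : ℝ :=
  ∑' I : (Ideal (𝓞 K))⁰, ((Ideal.absNorm (I : Ideal (𝓞 K)) : ℝ)) ^ (-s)

theorem summable_sigma_zetaR {s : ℝ} (hs : 1 < s) :
    Summable fun p : (Σ C : ClassGroup (𝓞 K), {I : (Ideal (𝓞 K))⁰ // ClassGroup.mk0 I = C}) =>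
      ((Ideal.absNorm (p.2.1 : Ideal (𝓞 K)) : ℝ)) ^ (-s) := by
  rw [summable_sigma_of_nonneg (fun p => Real.rpow_nonneg (Nat.cast_nonneg _) _)]
  exact ⟨fun C => summable_partialZeta K C hs, Summable.of_finite⟩

theorem summable_zetaR {s : ℝ} (hs : 1 < s) :
    Summable fun I : (Ideal (𝓞 K))⁰ => ((Ideal.absNorm (I : Ideal (𝓞 K)) : ℝ)) ^ (-s) := by
  have h := summable_sigma_zetaR K hs
  have := (Equiv.sigmaFiberEquiv
    (fun I : (Ideal (𝓞 K))⁰ => ClassGroup.mk0 I)).symm.summable_iff.mpr h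
  refine this.congr fun I => ?_
  simp [Equiv.sigmaFiberEquiv]

theorem zetaR_eq_sum_partialZeta {s : ℝ} (hs : 1 < s) :
    zetaR K s = ∑ C, partialZeta K C s := by
  have h := summable_sigma_zetaR K hs
  have e1 : zetaR K s =
      ∑' p : (Σ C : ClassGroup (𝓞 K), {I : (Ideal (𝓞 K))⁰ // ClassGroup.mk0 I = C}),
        ((Ideal.absNorm (p.2.1 : Ideal (𝓞 K)) : ℝ)) ^ (-s) := by
    rw [zetaR, ← (Equiv.sigmaFiberEquiv
      (fun I : (Ideal (𝓞 K))⁰ => ClassGroup.mk0 I)).symm.tsum_eq]
    refine tsum_congr fun I => ?_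
    simp [Equiv.sigmaFiberEquiv]
  rw [e1, h.tsum_sigma' (fun C => summable_partialZeta K C hs), tsum_fintype]
  rfl

theorem zetaR_nonneg (s : ℝ) : 0 ≤ zetaR K s :=
  tsum_nonneg fun _ => Real.rpow_nonneg (Nat.cast_nonneg _) _

/-- `(s - 1) ζ_K(s) → dedekindZeta_residue K` as `s → 1⁺`, for the real function `zetaR`. -/
theorem tendsto_sub_one_mul_zetaR :
    Tendsto (fun s : ℝ => (s - 1) * zetaR K s) (𝓝[>] 1) (𝓝 (dedekindZeta_residue K)) := by
  have h := tendsto_finsetSum (Finset.univ : Finset (ClassGroup (𝓞 K)))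
    (fun C _ => tendsto_sub_one_mul_partialZeta K C)
  have hL : ∑ _C : ClassGroup (𝓞 K), dedekindZeta_residue K / classNumber K =
      dedekindZeta_residue K := by
    have h1 : (classNumber K : ℝ) ≠ 0 := Nat.cast_ne_zero.mpr (classNumber_pos K).ne'
    rw [Finset.sum_const, Finset.card_univ, nsmul_eq_mul, ← classNumber, mul_div_cancel₀ _ h1]
  rw [hL] at h
  refine h.congr' ?_
  filter_upwards [self_mem_nhdsWithin] with s hs
  rw [zetaR_eq_sum_partialZeta K hs, Finset.mul_sum]

end NumberField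

end Fermat.Agent.S14.Zeta
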