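/-
S14 / Z1.d (lemma row 112), independent proof by helper96: the three statements of the row
(`Fs_nonneg`, `Fs_integer_le_one`, `exists_Fs_shift_bound`) in the exact row shapes, deduced from
`Fermat.Agent.S14.ZetaShift` (shift estimate for `F K s = psi K * norm ^ (-s)`), where `psi`/`F`
are definitionally the `weight`/`Fs` of `Zeta/Defs.lean`.
Namespace `Fermat.Agent.S14.Zeta.LipschitzC` (no clash with `Zeta/Lipschitz.lean` / `LipschitzB`).
-/
import Fermat.Agent.S14.Zeta.Defs
import Fermat.Agent.S14.ZetaShift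

set_option autoImplicit false

open NumberField NumberField.mixedEmbedding NumberField.Units NumberField.InfinitePlace Module

namespace Fermat.Agent.S14.Zeta.LipschitzC

open Fermat.Agent.S14.Zeta

variable (K : Type*) [Field K] [NumberField K]

theorem tent_eq (t : ℝ) : tent t = ZetaShift.tent t := rfl

theorem tentPi_eq {ι : Type*} [Fintype ι] (c : ι → ℝ) : tentPi c = ZetaShift.tentProd c := rfl

theorem weight0_eq (y : dirichletUnitTheorem.logSpace K) : weight0 K y = ZetaShift.psi0 K y := rfl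

theorem weight_eq (x : mixedSpace K) : weight K x = ZetaShift.psi K x := rfl

theorem Fs_eq (s : ℝ) (x : mixedSpace K) : Fs K s x = ZetaShift.F K s x := rfl

theorem Fs_nonneg (s : ℝ) (x : mixedSpace K) : 0 ≤ Fs K s x := by
  rw [Fs_eq, ZetaShift.F_def]
  exact mul_nonneg (ZetaShift.psi_nonneg x)
    (Real.rpow_nonneg (mixedEmbedding.norm_nonneg x) _)

theorem Fs_integer_le_one (a : 𝓞 K) {s : ℝ} (hs : 0 ≤ s) :
    Fs K s (mixedEmbedding K (a : K)) ≤ 1 := by
  rw [Fs_eq, ZetaShift.F_def]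
  by_cases h0 : mixedEmbedding.norm (mixedEmbedding K (a : K)) = 0
  · have : ZetaShift.psi K (mixedEmbedding K (a : K)) = 0 := by
      unfold ZetaShift.psi; rw [if_pos h0]
    rw [this, zero_mul]; exact zero_le_one
  · have hn : 1 ≤ mixedEmbedding.norm (mixedEmbedding K (a : K)) := by
      rw [mixedEmbedding.norm_eq_norm] at h0 ⊢
      rw [← Algebra.coe_norm_int] at h0 ⊢
      have hne : Algebra.norm ℤ a ≠ 0 := by
        intro h; apply h0; rw [h]; simp
      have : (1 : ℤ) ≤ |Algebra.norm ℤ a| := Int.one_le_abs hne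
      have h1 : ((1 : ℤ) : ℝ) ≤ ((|Algebra.norm ℤ a| : ℤ) : ℝ) := by exact_mod_cast this
      simpa using h1
    have h1 : mixedEmbedding.norm (mixedEmbedding K (a : K)) ^ (-s) ≤ 1 :=
      Real.rpow_le_one_of_one_le_of_nonpos hn (by linarith)
    calc ZetaShift.psi K (mixedEmbedding K (a : K)) *
          mixedEmbedding.norm (mixedEmbedding K (a : K)) ^ (-s)
        ≤ 1 * 1 := mul_le_mul (ZetaShift.psi_le_one _) h1
          (Real.rpow_nonneg (mixedEmbedding.norm_nonneg _) _) zero_le_one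
      _ = 1 := one_mul 1

open scoped Classical in
theorem exists_Fs_shift_bound (v : mixedSpace K) : ∃ C R : ℝ, 0 < R ∧
    ∀ s ∈ Set.Icc (1 : ℝ) 2, ∀ x : mixedSpace K, R ≤ ‖x‖ →
      |Fs K s (x + v) - Fs K s x| ≤ C * ‖x‖ ^ (-(Module.finrank ℚ K + 1 : ℝ)) := by
  obtain ⟨C, R, _, hR0, h⟩ := ZetaShift.shift_estimate K v
  refine ⟨C, R, hR0, fun s hs x hx => ?_⟩
  have := h s hs.1 hs.2 x hx
  rw [Fs_eq, Fs_eq]
  refine this.trans (le_of_eq ?_)
  congr 1
  rw [Real.rpow_neg (norm_nonneg _)]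
  congr 1
  have : (Module.finrank ℚ K + 1 : ℝ) = ((Module.finrank ℚ K + 1 : ℕ) : ℝ) := by push_cast; rfl
  rw [this, Real.rpow_natCast]

end Fermat.Agent.S14.Zeta.LipschitzC
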