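/-
S14 / Z1.b (helper47): the sum of the weight over a unit orbit is `torsionOrder K`.
-/
import Mathlib
import Fermat.Agent.S14.Zeta.Defs

set_option autoImplicit false

open NumberField NumberField.mixedEmbedding NumberField.Units NumberField.InfinitePlace
open scoped nonZeroDivisors ENNReal

namespace Fermat.Agent.S14.Zeta

/-! ### Local facts on the tent function (kept under `us_` names) -/

theorem us_tent_nonneg (t : ℝ) : 0 ≤ tent t := le_max_left _ _

theorem us_tent_le_one (t : ℝ) : tent t ≤ 1 := by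
  unfold tent
  exact max_le zero_le_one (by linarith [abs_nonneg t])

theorem us_tentPi_nonneg {ι : Type*} [Fintype ι] (c : ι → ℝ) : 0 ≤ tentPi c :=
  Finset.prod_nonneg fun i _ => us_tent_nonneg (c i)

theorem us_tentPi_le_one {ι : Type*} [Fintype ι] (c : ι → ℝ) : tentPi c ≤ 1 :=
  Finset.prod_le_one (fun i _ => us_tent_nonneg (c i)) fun i _ => us_tent_le_one (c i)

/-- One-dimensional partition of unity. -/
theorem us_tsum_ofReal_tent_add_int (t : ℝ) :
    ∑' n : ℤ, ENNReal.ofReal (tent (t + n)) = 1 := by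
  have hsupp : ∀ n : ℤ, n ∉ ({-⌊t⌋, -⌊t⌋ - 1} : Finset ℤ) →
      ENNReal.ofReal (tent (t + n)) = 0 := by
    intro n hn
    rw [Finset.mem_insert, Finset.mem_singleton, not_or] at hn
    rw [ENNReal.ofReal_eq_zero]
    unfold tent
    apply max_le le_rfl
    have h1 := Int.floor_le t
    have h2 := Int.lt_floor_add_one t
    rcases lt_or_gt_of_ne hn.1 with h | h
    · have h' : n ≤ -⌊t⌋ - 1 := by omega
      have h'' : n < -⌊t⌋ - 1 := lt_of_le_of_ne h' hn.2
      have h3 : (n : ℝ) ≤ -⌊t⌋ - 2 := by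
        have : n ≤ -⌊t⌋ - 2 := by omega
        exact_mod_cast this
      have : t + n ≤ -1 := by linarith
      rw [abs_of_nonpos (by linarith)]
      linarith
    · have h3 : (-⌊t⌋ + 1 : ℝ) ≤ n := by
        have : -⌊t⌋ + 1 ≤ n := by omega
        exact_mod_cast this
      have : 1 ≤ t + n := by linarith
      rw [abs_of_nonneg (by linarith)]
      linarith
  rw [tsum_eq_sum hsupp, Finset.sum_pair (by omega)]
  have h1 := Int.floor_le t
  have h2 := Int.lt_floor_add_one t
  have e1 : tent (t + ((-⌊t⌋ : ℤ) : ℝ)) = 1 - (t - ⌊t⌋) := by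
    unfold tent
    push_cast
    rw [abs_of_nonneg (by linarith), max_eq_right (by linarith)]
    ring
  have e2 : tent (t + ((-⌊t⌋ - 1 : ℤ) : ℝ)) = t - ⌊t⌋ := by
    unfold tent
    push_cast
    rw [abs_of_nonpos (by linarith), max_eq_right (by linarith)]
    ring
  rw [e1, e2, ← ENNReal.ofReal_add (by linarith) (by linarith)]
  simp

/-- Product formula for `ℝ≥0∞`-valued sums over a finite product of index types. -/
theorem us_tsum_pi_prod :
    ∀ (ι : Type) [Fintype ι] (f : ι → ℤ → ℝ≥0∞),
      ∑' n : ι → ℤ, ∏ i, f i (n i) = ∏ i, ∑' k : ℤ, f i k := by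
  intro ι _
  refine Fintype.induction_empty_option
    (P := fun ι [Fintype ι] => ∀ f : ι → ℤ → ℝ≥0∞,
      ∑' n : ι → ℤ, ∏ i, f i (n i) = ∏ i, ∑' k : ℤ, f i k) ?_ ?_ ?_ ι
  · intro α β _ e hα f
    let _ : Fintype α := Fintype.ofEquiv β e.symm
    have h1 := hα (fun a => f (e a))
    rw [← (Equiv.piCongrLeft (fun _ => ℤ) e).tsum_eq]
    rw [← Equiv.prod_comp e (fun i => ∑' k : ℤ, f i k), ← h1]
    refine tsum_congr fun n => ?_
    rw [← Equiv.prod_comp e]
    refine Finset.prod_congr rfl fun a _ => ?_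
    rw [Equiv.piCongrLeft_apply_apply]
  · intro f
    simp
  · intro α _ hα f
    rw [← (Equiv.piOptionEquivProd (β := fun _ => ℤ)).symm.tsum_eq]
    rw [ENNReal.tsum_prod', Fintype.prod_option, ← hα (fun a => f (some a)), ← ENNReal.tsum_mul_right]
    refine tsum_congr fun k => ?_
    rw [← ENNReal.tsum_mul_left]
    refine tsum_congr fun n => ?_
    rw [Fintype.prod_option]
    rfl

theorem us_tsum_ofReal_tentPi_add_int {ι : Type} [Fintype ι] (c : ι → ℝ) :
    ∑' n : ι → ℤ, ENNReal.ofReal (tentPi (fun i => c i + n i)) = 1 := by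
  have h1 : ∀ n : ι → ℤ, ENNReal.ofReal (tentPi (fun i => c i + n i)) =
      ∏ i, (fun i (k : ℤ) => ENNReal.ofReal (tent (c i + k))) i (n i) := by
    intro n
    unfold tentPi
    rw [ENNReal.ofReal_prod_of_nonneg fun i _ => us_tent_nonneg _]
  rw [tsum_congr h1, us_tsum_pi_prod ι (fun i (k : ℤ) => ENNReal.ofReal (tent (c i + k)))]
  simp [us_tsum_ofReal_tent_add_int]

variable (K : Type*) [Field K] [NumberField K]

theorem us_weight0_nonneg (y : dirichletUnitTheorem.logSpace K) : 0 ≤ weight0 K y :=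
  us_tentPi_nonneg _

theorem us_weight0_le_one (y : dirichletUnitTheorem.logSpace K) : weight0 K y ≤ 1 :=
  us_tentPi_le_one _

theorem weight_nonneg (x : mixedSpace K) : 0 ≤ weight K x := by
  unfold weight
  split_ifs
  · exact le_rfl
  · exact us_weight0_nonneg K _

theorem weight_le_one (x : mixedSpace K) : weight K x ≤ 1 := by
  unfold weight
  split_ifs
  · exact zero_le_one
  · exact us_weight0_le_one K _

/-- `(𝓞 K)ˣ` is the product of its quotient by torsion and the torsion subgroup (as a set). -/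
noncomputable def us_unitsProdEquiv : ((𝓞 K)ˣ ⧸ torsion K) × torsion K ≃ (𝓞 K)ˣ where
  toFun p := Quotient.out p.1 * (p.2 : (𝓞 K)ˣ)
  invFun u := ((u : (𝓞 K)ˣ ⧸ torsion K),
    ⟨(Quotient.out (u : (𝓞 K)ˣ ⧸ torsion K))⁻¹ * u, by
      rw [← QuotientGroup.eq]
      exact QuotientGroup.out_eq' _⟩)
  left_inv p := by
    obtain ⟨q, t⟩ := p
    have h : ((Quotient.out q * (t : (𝓞 K)ˣ) : (𝓞 K)ˣ) : (𝓞 K)ˣ ⧸ torsion K) = q := by
      rw [QuotientGroup.mk_mul_of_mem _ t.2]
      exact QuotientGroup.out_eq' q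
    refine Prod.ext h (Subtype.ext ?_)
    simp only [h]
    group
  right_inv u := by
    simp

theorem us_logEmbedding_unitsProdEquiv (p : ((𝓞 K)ˣ ⧸ torsion K) × torsion K) :
    logEmbedding K (Additive.ofMul (us_unitsProdEquiv K p)) =
      (logEmbeddingEquiv K (Additive.ofMul p.1) : dirichletUnitTheorem.logSpace K) := by
  obtain ⟨q, t⟩ := p
  have h1 : logEmbedding K (Additive.ofMul (t : (𝓞 K)ˣ)) = 0 :=
    dirichletUnitTheorem.logEmbedding_eq_zero_iff.mpr t.2
  have h2 := logEmbeddingEquiv_apply K (Quotient.out q)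
  rw [QuotientGroup.out_eq'] at h2
  show logEmbedding K (Additive.ofMul (Quotient.out q * (t : (𝓞 K)ˣ))) = _
  rw [ofMul_mul, map_add, h1, add_zero, h2]

theorem tsum_comp_logEmbedding (f : dirichletUnitTheorem.logSpace K → ℝ≥0∞) :
    ∑' u : (𝓞 K)ˣ, f (logEmbedding K (Additive.ofMul u)) =
      torsionOrder K * ∑' e : unitLattice K, f e := by
  rw [← (us_unitsProdEquiv K).tsum_eq]
  simp_rw [us_logEmbedding_unitsProdEquiv]
  rw [ENNReal.tsum_prod']
  simp_rw [ENNReal.tsum_const, ENat.card_eq_coe_natCard]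
  rw [ENNReal.tsum_mul_left]
  congr 1
  exact (Additive.ofMul.trans (logEmbeddingEquiv K).toEquiv).tsum_eq
    (fun e : unitLattice K => f e)

open scoped Classical in
theorem us_logCoord_coe_apply (e : unitLattice K) (i : Fin (NumberField.Units.rank K)) :
    logCoord K (e : dirichletUnitTheorem.logSpace K) i = ((basisUnitLattice K).repr e i : ℝ) := by
  unfold logCoord
  rw [Module.Basis.equivFun_apply]
  exact Module.Basis.ofZLatticeBasis_repr_apply ℝ (unitLattice K) (basisUnitLattice K) e i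

theorem tsum_weight0_add (y : dirichletUnitTheorem.logSpace K) :
    ∑' e : unitLattice K, ENNReal.ofReal (weight0 K (y + e)) = 1 := by
  rw [← (basisUnitLattice K).equivFun.symm.toEquiv.tsum_eq]
  have h : ∀ n : Fin (NumberField.Units.rank K) → ℤ,
      weight0 K (y + ((basisUnitLattice K).equivFun.symm.toEquiv n : unitLattice K)) =
        tentPi (fun i => logCoord K y i + n i) := by
    intro n
    unfold weight0
    congr 1
    ext i
    rw [map_add, Pi.add_apply, us_logCoord_coe_apply]
    congr 2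
    have := (basisUnitLattice K).equivFun.apply_symm_apply n
    rw [Module.Basis.equivFun_apply] at this
    exact congrFun this i
  simp_rw [h]
  exact us_tsum_ofReal_tentPi_add_int _

theorem tsum_weight_unit_smul (x : mixedSpace K) (hx : mixedEmbedding.norm x ≠ 0) :
    ∑' u : (𝓞 K)ˣ, ENNReal.ofReal (weight K (u • x)) = torsionOrder K := by
  have h : ∀ u : (𝓞 K)ˣ, ENNReal.ofReal (weight K (u • x)) =
      (fun y' => ENNReal.ofReal (weight0 K (logMap x + y')))
        (logEmbedding K (Additive.ofMul u)) := by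
    intro u
    unfold weight
    rw [if_neg (by rwa [norm_unit_smul]), logMap_unit_smul u hx, add_comm]
  rw [tsum_congr h, tsum_comp_logEmbedding K (fun y' => ENNReal.ofReal (weight0 K (logMap x + y'))),
    tsum_weight0_add, mul_one]

end Fermat.Agent.S14.Zeta
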