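import Mathlib
import Fermat.Agent.S14.Zeta.Defs
import Fermat.Agent.S14.Zeta.UnitSum

/-!
# S14 / Z1.c : the orbit sum

`torsionOrder K * ∑_{I ∈ C} N(I)^(-s) = N(J)^s * ∑_{a ∈ J} Fs s (mixedEmbedding a)` for an ideal
`J` in the class `C⁻¹` (an identity in `ℝ≥0∞`, valid for every real `s`).
-/

set_option autoImplicit false

open NumberField NumberField.mixedEmbedding NumberField.Units NumberField.InfinitePlace
open scoped nonZeroDivisors ENNReal

namespace Fermat.Agent.S14.Zeta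

variable (K : Type*) [Field K] [NumberField K]

/-- The norm of the image of an integer in the mixed space is the absolute norm of the principal
ideal it generates. -/
theorem orbitSum_norm_eq_absNorm (a : 𝓞 K) :
    mixedEmbedding.norm (mixedEmbedding K (a : K)) = (Ideal.absNorm (Ideal.span {a}) : ℝ) := by
  rw [Ideal.absNorm_span_singleton, Nat.cast_natAbs, ← Rat.cast_intCast, Int.cast_abs,
    Algebra.coe_norm_int, ← norm_eq_norm]

/-- `Fs` at a unit multiple. -/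
theorem orbitSum_Fs_unit_mul (s : ℝ) (u : (𝓞 K)ˣ) (g : 𝓞 K) :
    Fs K s (mixedEmbedding K (((u : 𝓞 K) * g : 𝓞 K) : K)) =
      weight K (u • mixedEmbedding K (g : K)) *
        ((Ideal.absNorm (Ideal.span {g}) : ℝ)) ^ (-s) := by
  have h : mixedEmbedding K (((u : 𝓞 K) * g : 𝓞 K) : K) = u • mixedEmbedding K (g : K) := by
    rw [unitSMul_smul, ← map_mul]
    rfl
  rw [h, Fs, norm_unit_smul, orbitSum_norm_eq_absNorm]

/-- The weight vanishes at `0`. -/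
theorem orbitSum_Fs_zero (s : ℝ) : Fs K s (mixedEmbedding K (((0 : 𝓞 K)) : K)) = 0 := by
  have : mixedEmbedding.norm (mixedEmbedding K (((0 : 𝓞 K)) : K)) = 0 := by
    rw [norm_eq_norm]; simp
  rw [Fs, weight, if_pos this, zero_mul]

section Index

variable {K}

/-- The nonzero principal ideals divisible by `J`. -/
abbrev PrincDvd (J : (Ideal (𝓞 K))⁰) : Type _ :=
  {I : (Ideal (𝓞 K))⁰ // J ∣ I ∧ (I : Ideal (𝓞 K)).IsPrincipal}

/-- A chosen generator. -/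
noncomputable def princGen {J : (Ideal (𝓞 K))⁰} (I : PrincDvd J) : 𝓞 K :=
  @Submodule.IsPrincipal.generator _ _ _ _ _ (I.1 : Ideal (𝓞 K)) I.2.2

theorem span_princGen {J : (Ideal (𝓞 K))⁰} (I : PrincDvd J) :
    Ideal.span {princGen I} = (I.1 : Ideal (𝓞 K)) :=
  @Ideal.span_singleton_generator _ _ (I.1 : Ideal (𝓞 K)) I.2.2

theorem princGen_ne_zero {J : (Ideal (𝓞 K))⁰} (I : PrincDvd J) : princGen I ≠ 0 := by
  intro h
  have h1 := span_princGen I
  rw [h, Ideal.span_singleton_eq_bot.mpr rfl] at h1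
  exact (nonZeroDivisors.coe_ne_zero I.1) h1.symm

theorem princGen_mem {J : (Ideal (𝓞 K))⁰} (I : PrincDvd J) :
    princGen I ∈ (J : Ideal (𝓞 K)) := by
  have h1 : (J : Ideal (𝓞 K)) ∣ (I.1 : Ideal (𝓞 K)) := nonZeroDivisors_dvd_iff_dvd_coe.mp I.2.1
  have h2 : princGen I ∈ (I.1 : Ideal (𝓞 K)) := by
    rw [← span_princGen I]; exact Ideal.mem_span_singleton_self _
  exact Ideal.le_of_dvd h1 h2

/-- The map `(I, u) ↦ u * gen I` onto the nonzero elements of `J`. -/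
noncomputable def orbitMap (J : (Ideal (𝓞 K))⁰) (p : PrincDvd J × (𝓞 K)ˣ) :
    {a : (J : Ideal (𝓞 K)) // a ≠ 0} :=
  ⟨⟨(p.2 : 𝓞 K) * princGen p.1, Ideal.mul_mem_left _ _ (princGen_mem p.1)⟩, by
    intro h
    have h' : (p.2 : 𝓞 K) * princGen p.1 = 0 := congrArg Subtype.val h
    exact (mul_ne_zero p.2.ne_zero (princGen_ne_zero p.1)) h'⟩

theorem orbitMap_coe (J : (Ideal (𝓞 K))⁰) (p : PrincDvd J × (𝓞 K)ˣ) :
    ((orbitMap J p).1 : 𝓞 K) = (p.2 : 𝓞 K) * princGen p.1 := rfl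

theorem orbitMap_bijective (J : (Ideal (𝓞 K))⁰) : Function.Bijective (orbitMap J) := by
  constructor
  · rintro ⟨I, u⟩ ⟨I', u'⟩ h
    have h1 : (u : 𝓞 K) * princGen I = (u' : 𝓞 K) * princGen I' := by
      have := congrArg (fun a => ((a.1 : (J : Ideal (𝓞 K))) : 𝓞 K)) h
      simpa [orbitMap_coe] using this
    have h2 : (I.1 : Ideal (𝓞 K)) = (I'.1 : Ideal (𝓞 K)) := by
      rw [← span_princGen I, ← span_princGen I',
        ← Ideal.span_singleton_mul_left_unit u.isUnit (princGen I),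
        ← Ideal.span_singleton_mul_left_unit u'.isUnit (princGen I'), h1]
    have h3 : I = I' := Subtype.ext (Subtype.ext h2)
    subst h3
    have h4 : (u : 𝓞 K) = (u' : 𝓞 K) := mul_right_cancel₀ (princGen_ne_zero I) h1
    rw [Units.ext h4]
  · rintro ⟨⟨a, haJ⟩, ha0⟩
    have ha : a ≠ 0 := fun h => ha0 (Subtype.ext h)
    have hne : Ideal.span {a} ≠ (⊥ : Ideal (𝓞 K)) := by
      rw [Ne, Ideal.span_singleton_eq_bot]; exact ha
    let I0 : (Ideal (𝓞 K))⁰ := ⟨Ideal.span {a}, mem_nonZeroDivisors_of_ne_zero hne⟩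
    have hdvd : J ∣ I0 := by
      rw [nonZeroDivisors_dvd_iff_dvd_coe]
      exact Ideal.dvd_span_singleton.mpr haJ
    let I : PrincDvd J := ⟨I0, hdvd, ⟨⟨a, rfl⟩⟩⟩
    have hspan : Ideal.span {princGen I} = Ideal.span {a} := span_princGen I
    obtain ⟨u, hu⟩ := Ideal.span_singleton_eq_span_singleton.mp hspan
    refine ⟨(I, u), ?_⟩
    apply Subtype.ext
    apply Subtype.ext
    rw [orbitMap_coe]
    show (u : 𝓞 K) * princGen I = a
    rw [mul_comm]; exact hu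

end Index

/-- The classes `C` correspond to the principal ideals divisible by `J` (for `J ∈ C⁻¹`). -/
noncomputable def classEquivPrincDvd (C : ClassGroup (𝓞 K)) (J : (Ideal (𝓞 K))⁰)
    (hJ : ClassGroup.mk0 J = C⁻¹) :
    {I : (Ideal (𝓞 K))⁰ // ClassGroup.mk0 I = C} ≃ PrincDvd J :=
  ((Equiv.dvd J).subtypeEquiv fun I => by
      rw [← ClassGroup.mk0_eq_one_iff (SetLike.coe_mem _), Equiv.dvd_apply, map_mul, hJ,
        inv_mul_eq_one, eq_comm]).trans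
    (Equiv.subtypeSubtypeEquivSubtypeInter (fun I : (Ideal (𝓞 K))⁰ => J ∣ I)
      (fun I => (I : Ideal (𝓞 K)).IsPrincipal))

theorem classEquivPrincDvd_coe (C : ClassGroup (𝓞 K)) (J : (Ideal (𝓞 K))⁰)
    (hJ : ClassGroup.mk0 J = C⁻¹) (I : {I : (Ideal (𝓞 K))⁰ // ClassGroup.mk0 I = C}) :
    ((classEquivPrincDvd K C J hJ I).1 : Ideal (𝓞 K)) =
      (J : Ideal (𝓞 K)) * (I.1 : Ideal (𝓞 K)) := rfl

/-- The right-hand side: the lattice sum over `J` as a sum over principal ideals, given the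
unit-orbit identity `hU` (row Z1.b). -/
theorem tsum_Fs_ideal_of
    (hU : ∀ x : mixedSpace K, mixedEmbedding.norm x ≠ 0 →
      ∑' u : (𝓞 K)ˣ, ENNReal.ofReal (weight K (u • x)) = torsionOrder K)
    (J : (Ideal (𝓞 K))⁰) (s : ℝ) :
    ∑' a : (J : Ideal (𝓞 K)), ENNReal.ofReal (Fs K s (mixedEmbedding K ((a : 𝓞 K) : K))) =
      (torsionOrder K : ℝ≥0∞) * ∑' I : PrincDvd J,
        ENNReal.ofReal (((Ideal.absNorm (I.1 : Ideal (𝓞 K)) : ℝ)) ^ (-s)) := by
  set F : ↥(J : Ideal (𝓞 K)) → ℝ≥0∞ :=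
    fun a => ENNReal.ofReal (Fs K s (mixedEmbedding K ((a : 𝓞 K) : K))) with hF
  have hsupp : Function.support F ⊆ {a | a ≠ 0} := by
    intro a ha
    rw [Function.mem_support] at ha
    intro h0
    apply ha
    rw [h0, hF]
    simp only [ZeroMemClass.coe_zero]
    rw [orbitSum_Fs_zero, ENNReal.ofReal_zero]
  rw [← tsum_subtype_eq_of_support_subset hsupp]
  have h2 : ∑' x : ({a | a ≠ 0} : Set ↥(J : Ideal (𝓞 K))), F x =
      ∑' p : PrincDvd J × (𝓞 K)ˣ, F ((Equiv.ofBijective _ (orbitMap_bijective J)) p).1 :=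
    ((Equiv.ofBijective _ (orbitMap_bijective J)).tsum_eq
      (fun a : {a : ↥(J : Ideal (𝓞 K)) // a ≠ 0} => F a.1)).symm
  rw [h2, ENNReal.tsum_prod', ← ENNReal.tsum_mul_left]
  refine tsum_congr fun I => ?_
  have hterm : ∀ u : (𝓞 K)ˣ,
      F ((Equiv.ofBijective _ (orbitMap_bijective J)) (I, u)).1 =
        ENNReal.ofReal (weight K (u • mixedEmbedding K ((princGen I : 𝓞 K) : K))) *
          ENNReal.ofReal (((Ideal.absNorm (I.1 : Ideal (𝓞 K)) : ℝ)) ^ (-s)) := by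
    intro u
    rw [hF]
    simp only [Equiv.ofBijective_apply, orbitMap_coe]
    rw [orbitSum_Fs_unit_mul, span_princGen,
      ENNReal.ofReal_mul' (Real.rpow_nonneg (Nat.cast_nonneg _) _)]
  rw [tsum_congr hterm, ENNReal.tsum_mul_right, hU]
  rw [orbitSum_norm_eq_absNorm, span_princGen]
  exact Nat.cast_ne_zero.mpr (Ideal.absNorm_ne_zero_of_nonZeroDivisors I.1)

/-- **Row Z1.c**, with the unit-orbit identity of row Z1.b as a hypothesis. -/
theorem torsionOrder_mul_tsum_class_of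
    (hU : ∀ x : mixedSpace K, mixedEmbedding.norm x ≠ 0 →
      ∑' u : (𝓞 K)ˣ, ENNReal.ofReal (weight K (u • x)) = torsionOrder K)
    (C : ClassGroup (𝓞 K)) (J : (Ideal (𝓞 K))⁰) (hJ : ClassGroup.mk0 J = C⁻¹) (s : ℝ) :
    (torsionOrder K : ℝ≥0∞) * ∑' I : {I : (Ideal (𝓞 K))⁰ // ClassGroup.mk0 I = C},
        ENNReal.ofReal ((Ideal.absNorm (I.1 : Ideal (𝓞 K)) : ℝ) ^ (-s)) =
    ENNReal.ofReal ((Ideal.absNorm (J : Ideal (𝓞 K)) : ℝ) ^ s) *
      ∑' a : (J : Ideal (𝓞 K)), ENNReal.ofReal (Fs K s (mixedEmbedding K ((a : 𝓞 K) : K))) := by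
  rw [tsum_Fs_ideal_of K hU J s]
  have h1 : ∑' I : PrincDvd J,
      ENNReal.ofReal (((Ideal.absNorm (I.1 : Ideal (𝓞 K)) : ℝ)) ^ (-s)) =
      ∑' I : {I : (Ideal (𝓞 K))⁰ // ClassGroup.mk0 I = C}, ENNReal.ofReal
        (((Ideal.absNorm ((classEquivPrincDvd K C J hJ I).1 : Ideal (𝓞 K)) : ℝ)) ^ (-s)) :=
    ((classEquivPrincDvd K C J hJ).tsum_eq (fun I : PrincDvd J =>
      ENNReal.ofReal (((Ideal.absNorm (I.1 : Ideal (𝓞 K)) : ℝ)) ^ (-s)))).symm
  rw [h1, mul_left_comm]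
  congr 1
  rw [← ENNReal.tsum_mul_left]
  refine tsum_congr fun I => ?_
  have hJpos : (0 : ℝ) < (Ideal.absNorm (J : Ideal (𝓞 K)) : ℝ) :=
    Nat.cast_pos.mpr (Ideal.absNorm_pos_of_nonZeroDivisors J)
  have hIpos : (0 : ℝ) < (Ideal.absNorm (I.1 : Ideal (𝓞 K)) : ℝ) :=
    Nat.cast_pos.mpr (Ideal.absNorm_pos_of_nonZeroDivisors I.1)
  rw [classEquivPrincDvd_coe, map_mul, Nat.cast_mul,
    ← ENNReal.ofReal_mul (Real.rpow_nonneg hJpos.le _),
    Real.mul_rpow hJpos.le hIpos.le, ← mul_assoc, ← Real.rpow_add hJpos, add_neg_cancel,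
    Real.rpow_zero, one_mul]

/-- **Row Z1.c.** `w_K * ζ(s, C) = N(J)^s * ∑_{a ∈ J} Fs s a` in `ℝ≥0∞`, for `J ∈ C⁻¹` and every
real `s`. -/
theorem torsionOrder_mul_tsum_class (C : ClassGroup (𝓞 K)) (J : (Ideal (𝓞 K))⁰)
    (hJ : ClassGroup.mk0 J = C⁻¹) (s : ℝ) :
    (torsionOrder K : ℝ≥0∞) * ∑' I : {I : (Ideal (𝓞 K))⁰ // ClassGroup.mk0 I = C},
        ENNReal.ofReal ((Ideal.absNorm (I.1 : Ideal (𝓞 K)) : ℝ) ^ (-s)) =
    ENNReal.ofReal ((Ideal.absNorm (J : Ideal (𝓞 K)) : ℝ) ^ s) *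
      ∑' a : (J : Ideal (𝓞 K)), ENNReal.ofReal (Fs K s (mixedEmbedding K ((a : 𝓞 K) : K))) :=
  torsionOrder_mul_tsum_class_of K (tsum_weight_unit_smul K) C J hJ s

end Fermat.Agent.S14.Zeta
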