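/-
S14 / Z1.e (helper2): the coset shift estimate.

`∑_{a ∈ 𝓞} Fs s a = N(J) * ∑_{b ∈ J} Fs s b + O(1)` uniformly for `s ∈ (1,2]`, together with the real
form of the orbit identity `w * ζ(s,C) = N(J)^s * latticeSum J s`.
-/
import Mathlib
import Fermat.Agent.S14.Zeta.Defs
import Fermat.Agent.S14.Zeta.Glue
import Fermat.Agent.S14.Zeta.OrbitSum
import Fermat.Agent.S14.Zeta.UnitSum
import Fermat.Agent.S14.Zeta.LipschitzC
set_option autoImplicit false
open NumberField NumberField.mixedEmbedding NumberField.Units NumberField.InfinitePlace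
open scoped nonZeroDivisors ENNReal Topology
open Filter

namespace Fermat.Agent.S14.Zeta
open LipschitzC (Fs_nonneg Fs_integer_le_one exists_Fs_shift_bound)
variable (K : Type*) [Field K] [NumberField K]

/-- The image of an algebraic integer in the mixed space. -/
noncomputable def iota (a : 𝓞 K) : mixedSpace K := mixedEmbedding K (a : K)

theorem iota_injective : Function.Injective (iota K) := fun _ _ h =>
  RingOfIntegers.ext ((mixedEmbedding_injective K) h)

omit [NumberField K] in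
theorem iota_add (a b : 𝓞 K) : iota K (a + b) = iota K a + iota K b := by
  simp [iota]

omit [NumberField K] in
theorem iota_zero : iota K 0 = 0 := by simp [iota]

/-- The integers as a type equivalent to the integer lattice. -/
noncomputable def integerLatticeEquiv : 𝓞 K ≃ mixedEmbedding.integerLattice K :=
  Equiv.ofBijective (fun a => ⟨iota K a, ⟨a, rfl⟩⟩)
    ⟨fun _ _ h => iota_injective K (Subtype.ext_iff.mp h), fun ⟨_, a, rfl⟩ => ⟨a, rfl⟩⟩

open scoped Classical in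
theorem summable_norm_iota_rpow :
    Summable (fun a : 𝓞 K => ‖iota K a‖ ^ (-(Module.finrank ℚ K + 1 : ℝ))) := by
  have h := ZLattice.summable_norm_rpow (mixedEmbedding.integerLattice K)
    (-(Module.finrank ℚ K + 1 : ℝ)) (by
      rw [ZLattice.rank ℝ, mixedEmbedding.finrank]
      simp)
  exact (Equiv.summable_iff (integerLatticeEquiv K)).mpr h

/-! ### Summability and the real form of the orbit identity -/

theorem tsum_ofReal_class_ne_top (C : ClassGroup (𝓞 K)) {s : ℝ} (hs : 1 < s) :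
    ∑' I : {I : (Ideal (𝓞 K))⁰ // ClassGroup.mk0 I = C},
        ENNReal.ofReal ((Ideal.absNorm (I.1 : Ideal (𝓞 K)) : ℝ) ^ (-s)) ≠ ∞ := by
  rw [← ENNReal.ofReal_tsum_of_nonneg (fun I => by positivity) (summable_partialZeta K C hs)]
  exact ENNReal.ofReal_ne_top

theorem absNorm_pos (J : (Ideal (𝓞 K))⁰) : (0 : ℝ) < (Ideal.absNorm (J : Ideal (𝓞 K)) : ℝ) := by
  exact_mod_cast Nat.pos_of_ne_zero (Ideal.absNorm_ne_zero_of_nonZeroDivisors J)

theorem tsum_ofReal_Fs_ideal_ne_top (J : (Ideal (𝓞 K))⁰) {s : ℝ} (hs : 1 < s) :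
    ∑' a : (J : Ideal (𝓞 K)), ENNReal.ofReal (Fs K s (mixedEmbedding K ((a : 𝓞 K) : K))) ≠ ∞ := by
  have h := torsionOrder_mul_tsum_class_of K (tsum_weight_unit_smul K) ((ClassGroup.mk0 J)⁻¹) J (by simp) s
  intro htop
  rw [htop, ENNReal.mul_top] at h
  · exact (ENNReal.mul_ne_top (ENNReal.natCast_ne_top _)
      (tsum_ofReal_class_ne_top K _ hs)) h
  · simp only [ne_eq, ENNReal.ofReal_eq_zero, not_le]
    exact Real.rpow_pos_of_pos (absNorm_pos K J) s

theorem summable_Fs_ideal (J : (Ideal (𝓞 K))⁰) {s : ℝ} (hs : 1 < s) :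
    Summable (fun a : (J : Ideal (𝓞 K)) => Fs K s (mixedEmbedding K ((a : 𝓞 K) : K))) := by
  have h := ENNReal.summable_toReal (tsum_ofReal_Fs_ideal_ne_top K J hs)
  refine h.congr fun a => ?_
  rw [ENNReal.toReal_ofReal (Fs_nonneg K s _)]

theorem summable_Fs_iota {s : ℝ} (hs : 1 < s) :
    Summable (fun a : 𝓞 K => Fs K s (iota K a)) := by
  have h := summable_Fs_ideal K (1 : (Ideal (𝓞 K))⁰) hs
  let e : ((1 : (Ideal (𝓞 K))⁰) : Ideal (𝓞 K)) ≃ 𝓞 K :=
    { toFun := fun a => a.1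
      invFun := fun a => ⟨a, by simp⟩
      left_inv := fun a => rfl
      right_inv := fun a => rfl }
  have h2 : Summable ((fun a : 𝓞 K => Fs K s (iota K a)) ∘ e) := h.congr fun a => rfl
  exact (Equiv.summable_iff e).mp h2

/-- Real form of the orbit identity. -/
theorem torsionOrder_mul_partialZeta (C : ClassGroup (𝓞 K)) (J : (Ideal (𝓞 K))⁰)
    (hJ : ClassGroup.mk0 J = C⁻¹) {s : ℝ} (hs : 1 < s) :
    (torsionOrder K : ℝ) * partialZeta K C s =
      (Ideal.absNorm (J : Ideal (𝓞 K)) : ℝ) ^ s * latticeSum K J s := by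
  have h := torsionOrder_mul_tsum_class_of K (tsum_weight_unit_smul K) C J hJ s
  rw [← ENNReal.ofReal_tsum_of_nonneg (fun I => by positivity) (summable_partialZeta K C hs),
    ← ENNReal.ofReal_tsum_of_nonneg (fun a => Fs_nonneg K s _) (summable_Fs_ideal K J hs)] at h
  have h' := congrArg ENNReal.toReal h
  rw [ENNReal.toReal_mul, ENNReal.toReal_mul, ENNReal.toReal_natCast,
    ENNReal.toReal_ofReal (tsum_nonneg fun I => by positivity),
    ENNReal.toReal_ofReal (Real.rpow_nonneg (absNorm_pos K J).le s),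
    ENNReal.toReal_ofReal (tsum_nonneg fun a => Fs_nonneg K s _)] at h'
  exact h'

/-! ### The shift estimate -/

theorem Fs_iota_mem_Icc (a : 𝓞 K) {s : ℝ} (hs : 0 ≤ s) :
    0 ≤ Fs K s (iota K a) ∧ Fs K s (iota K a) ≤ 1 :=
  ⟨Fs_nonneg K s _, Fs_integer_le_one K a hs⟩

open scoped Classical in
theorem norm_iota_pos {b : 𝓞 K} (hb : b ≠ 0) : 0 < ‖iota K b‖ := by
  rw [norm_pos_iff]
  intro h
  exact hb (iota_injective K (h.trans (iota_zero K).symm))

open scoped Classical in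
/-- Bound on the sum of the shifted differences, uniform in `s ∈ [1,2]`. -/
theorem exists_shift_sum_bound (r : 𝓞 K) :
    ∃ D : ℝ, ∀ s ∈ Set.Icc (1 : ℝ) 2,
      Summable (fun b : 𝓞 K => |Fs K s (iota K (b + r)) - Fs K s (iota K b)|) ∧
      ∑' b : 𝓞 K, |Fs K s (iota K (b + r)) - Fs K s (iota K b)| ≤ D := by
  obtain ⟨C, R, hR, hCR⟩ := exists_Fs_shift_bound K (iota K r)
  set e : ℝ := (Module.finrank ℚ K + 1 : ℝ) with he
  have he0 : 0 < e := by positivity
  set C' : ℝ := max (max C 0) (2 * R ^ e) with hC'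
  have hC'0 : 0 ≤ C' := le_trans (le_max_right C 0) (le_max_left _ _)
  have hCC' : C ≤ C' := le_trans (le_max_left C 0) (le_max_left _ _)
  have hRC' : 2 * R ^ e ≤ C' := le_max_right _ _
  let g : 𝓞 K → ℝ := fun b => C' * ‖iota K b‖ ^ (-e) + (if b = 0 then 2 else 0)
  have hg : Summable g :=
    ((summable_norm_iota_rpow K).mul_left C').add (hasSum_ite_eq (0 : 𝓞 K) (2 : ℝ)).summable
  have hle : ∀ s ∈ Set.Icc (1 : ℝ) 2, ∀ b : 𝓞 K,
      |Fs K s (iota K (b + r)) - Fs K s (iota K b)| ≤ g b := by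
    intro s hs b
    have hs0 : (0 : ℝ) ≤ s := le_trans zero_le_one hs.1
    have h1 : |Fs K s (iota K (b + r)) - Fs K s (iota K b)| ≤ 1 :=
      abs_sub_le_of_nonneg_of_le (Fs_iota_mem_Icc K _ hs0).1 (Fs_iota_mem_Icc K _ hs0).2
        (Fs_iota_mem_Icc K _ hs0).1 (Fs_iota_mem_Icc K _ hs0).2
    have hpow0 : 0 ≤ ‖iota K b‖ ^ (-e) := Real.rpow_nonneg (norm_nonneg _) _
    by_cases hb : b = 0
    · simp only [g, hb, if_true]
      have : 0 ≤ C' * ‖iota K (0 : 𝓞 K)‖ ^ (-e) :=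
        mul_nonneg hC'0 (Real.rpow_nonneg (norm_nonneg _) _)
      subst hb
      linarith
    · simp only [g, hb, if_false, add_zero]
      have hpos := norm_iota_pos K hb
      by_cases hbR : R ≤ ‖iota K b‖
      · have := hCR s hs (iota K b) hbR
        rw [iota_add]
        refine this.trans ?_
        exact mul_le_mul_of_nonneg_right hCC' hpow0
      · replace hbR := not_le.mp hbR
        have h2 : R ^ (-e) ≤ ‖iota K b‖ ^ (-e) :=
          Real.rpow_le_rpow_of_nonpos hpos hbR.le (by linarith)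
        have h3 : R ^ e * R ^ (-e) = 1 := by
          rw [← Real.rpow_add hR]; simp
        calc |Fs K s (iota K (b + r)) - Fs K s (iota K b)| ≤ 1 := h1
          _ ≤ 2 * (R ^ e * R ^ (-e)) := by rw [h3]; norm_num
          _ = (2 * R ^ e) * R ^ (-e) := by ring
          _ ≤ C' * ‖iota K b‖ ^ (-e) :=
            mul_le_mul hRC' h2 (Real.rpow_nonneg hR.le _) hC'0
  refine ⟨∑' b, g b, fun s hs => ?_⟩
  have hsum : Summable (fun b : 𝓞 K => |Fs K s (iota K (b + r)) - Fs K s (iota K b)|) :=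
    Summable.of_nonneg_of_le (fun b => abs_nonneg _) (hle s hs) hg
  exact ⟨hsum, hsum.tsum_le_tsum (hle s hs) hg⟩

/-- Coset decomposition of the integers with respect to an ideal. -/
noncomputable def cosetEquiv (J : Ideal (𝓞 K)) : (𝓞 K ⧸ J) × J ≃ 𝓞 K where
  toFun p := Quotient.out p.1 + (p.2 : 𝓞 K)
  invFun a := ⟨Ideal.Quotient.mk J a, ⟨a - Quotient.out (Ideal.Quotient.mk J a), by
    rw [← Ideal.Quotient.eq, Ideal.Quotient.mk_out]⟩⟩
  left_inv := by
    rintro ⟨q, b⟩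
    have h1 : Ideal.Quotient.mk J (Quotient.out q + (b : 𝓞 K)) = q := by
      rw [map_add, Ideal.Quotient.mk_out, Ideal.Quotient.eq_zero_iff_mem.mpr b.2, add_zero]
    refine Prod.ext h1 (Subtype.ext ?_)
    simp only [h1]
    ring
  right_inv := by
    intro a
    simp

theorem cosetEquiv_apply (J : Ideal (𝓞 K)) (q : 𝓞 K ⧸ J) (b : J) :
    cosetEquiv K J (q, b) = (b : 𝓞 K) + Quotient.out q := add_comm _ _

theorem exists_shift_bound (J : (Ideal (𝓞 K))⁰) :
    ∃ D : ℝ, ∀ s ∈ Set.Ioc (1 : ℝ) 2,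
      |(∑' a : 𝓞 K, Fs K s (iota K a)) -
        (Ideal.absNorm (J : Ideal (𝓞 K)) : ℝ) * latticeSum K J s| ≤ D := by
  classical
  have : Finite (𝓞 K ⧸ (J : Ideal (𝓞 K))) :=
    Ideal.finiteQuotientOfFreeOfNeBot _ (nonZeroDivisors.coe_ne_zero J)
  let _ : Fintype (𝓞 K ⧸ (J : Ideal (𝓞 K))) := Fintype.ofFinite _
  choose D hD using fun q : 𝓞 K ⧸ (J : Ideal (𝓞 K)) => exists_shift_sum_bound K (Quotient.out q)
  refine ⟨∑ q, D q, fun s hs => ?_⟩
  have hs1 : (1 : ℝ) < s := hs.1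
  have hsI : s ∈ Set.Icc (1 : ℝ) 2 := ⟨hs.1.le, hs.2⟩
  have hA := summable_Fs_iota K hs1
  -- summability of each shifted family over `J`
  have hshift : ∀ q : 𝓞 K ⧸ (J : Ideal (𝓞 K)),
      Summable (fun b : (J : Ideal (𝓞 K)) => Fs K s (iota K ((b : 𝓞 K) + Quotient.out q))) := by
    intro q
    have hinj : Function.Injective (fun b : (J : Ideal (𝓞 K)) => (b : 𝓞 K) + Quotient.out q) :=
      fun b b' h => Subtype.ext (add_right_cancel h)
    exact hA.comp_injective hinj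
  have hB : Summable (fun b : (J : Ideal (𝓞 K)) => Fs K s (iota K (b : 𝓞 K))) :=
    hA.comp_injective Subtype.val_injective
  -- decompose the full sum
  have h1 : (∑' a : 𝓞 K, Fs K s (iota K a)) =
      ∑ q : 𝓞 K ⧸ (J : Ideal (𝓞 K)),
        ∑' b : (J : Ideal (𝓞 K)), Fs K s (iota K ((b : 𝓞 K) + Quotient.out q)) := by
    have hfin : (∑ q : 𝓞 K ⧸ (J : Ideal (𝓞 K)),
        ∑' b : (J : Ideal (𝓞 K)), Fs K s (iota K ((b : 𝓞 K) + Quotient.out q))) =
        ∑' q : 𝓞 K ⧸ (J : Ideal (𝓞 K)),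
        ∑' b : (J : Ideal (𝓞 K)), Fs K s (iota K ((b : 𝓞 K) + Quotient.out q)) :=
      (tsum_fintype _).symm
    rw [hfin]
    let f : (𝓞 K ⧸ (J : Ideal (𝓞 K))) × (J : Ideal (𝓞 K)) → ℝ :=
      fun p => Fs K s (iota K ((p.2 : 𝓞 K) + Quotient.out p.1))
    have hf : ∀ p, f p = Fs K s (iota K (cosetEquiv K (J : Ideal (𝓞 K)) p)) := by
      rintro ⟨q, b⟩
      show Fs K s (iota K ((b : 𝓞 K) + Quotient.out q)) = _
      rw [cosetEquiv_apply]
    have hsum : Summable f := by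
      have := (Equiv.summable_iff (cosetEquiv K (J : Ideal (𝓞 K)))).mpr hA
      exact this.congr fun p => (hf p).symm
    have key := hsum.tsum_prod' (fun q => hshift q)
    have e1 : (∑' a : 𝓞 K, Fs K s (iota K a)) = ∑' p, f p := by
      rw [← (cosetEquiv K (J : Ideal (𝓞 K))).tsum_eq]
      exact tsum_congr fun p => (hf p).symm
    rw [e1, key]
  have h2 : (Ideal.absNorm (J : Ideal (𝓞 K)) : ℝ) * latticeSum K J s =
      ∑ _q : 𝓞 K ⧸ (J : Ideal (𝓞 K)),
        ∑' b : (J : Ideal (𝓞 K)), Fs K s (iota K (b : 𝓞 K)) := by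
    rw [Finset.sum_const, Finset.card_univ, nsmul_eq_mul, Ideal.absNorm_apply,
      Submodule.cardQuot_apply, Nat.card_eq_fintype_card]
    rfl
  rw [h1, h2, ← Finset.sum_sub_distrib]
  refine (Finset.abs_sum_le_sum_abs _ _).trans (Finset.sum_le_sum fun q _ => ?_)
  rw [← (hshift q).tsum_sub hB]
  obtain ⟨hsq, hDq⟩ := hD q s hsI
  have hsq' : Summable (fun b : (J : Ideal (𝓞 K)) =>
      |Fs K s (iota K ((b : 𝓞 K) + Quotient.out q)) - Fs K s (iota K (b : 𝓞 K))|) :=
    hsq.comp_injective Subtype.val_injective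
  have := norm_tsum_le_tsum_norm (f := fun b : (J : Ideal (𝓞 K)) =>
      Fs K s (iota K ((b : 𝓞 K) + Quotient.out q)) - Fs K s (iota K (b : 𝓞 K))) hsq'
  simp only [Real.norm_eq_abs] at this
  refine this.trans (le_trans ?_ hDq)
  exact Summable.tsum_le_tsum_of_inj Subtype.val Subtype.val_injective
    (fun c _ => abs_nonneg _) (fun b => le_rfl) hsq' hsq

end Fermat.Agent.S14.Zeta
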