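import Mathlib
import Fermat.Agent.S14.LatticeSumShift
import Fermat.Agent.S14.Zeta.Defs

/-!
# S14 / Z1.e (generic instantiation): coset shift for the lattice of an ideal

For a nonzero ideal `J` of `𝓞 K` and a family `F i : mixedSpace K → ℝ` satisfying a shift bound,
`∑_{a ∈ 𝓞 K} F i a - N(J) * ∑_{a ∈ J} F i a` is bounded uniformly in `i`.
-/

set_option autoImplicit false

open NumberField NumberField.mixedEmbedding Module
open scoped Classical

namespace Fermat.Agent.S14.Zeta.CosetShiftInst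

open Fermat.Agent.S14.LatticeSum Fermat.Agent.S14.LatticeSumShift

variable (K : Type*) [Field K] [NumberField K]

/-- The embedding `𝓞 K → mixedSpace K` as a `ℤ`-linear map. -/
noncomputable abbrev phi : 𝓞 K →ₗ[ℤ] mixedSpace K :=
  ((mixedEmbedding K).comp (algebraMap (𝓞 K) K)).toIntAlgHom.toLinearMap

theorem phi_apply (a : 𝓞 K) : phi K a = mixedEmbedding K (a : K) := rfl

theorem phi_injective : Function.Injective (phi K) := by
  intro a b h
  have := mixedEmbedding_injective K h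
  exact RingOfIntegers.ext this

/-- `𝓞 K ≃ integerLattice K`. -/
noncomputable def eL : 𝓞 K ≃ₗ[ℤ] mixedEmbedding.integerLattice K :=
  LinearEquiv.ofInjective (phi K) (phi_injective K)

theorem eL_coe (a : 𝓞 K) : ((eL K a : mixedEmbedding.integerLattice K) : mixedSpace K)
    = mixedEmbedding K (a : K) := rfl

variable {K}

/-- The lattice of an ideal. -/
noncomputable abbrev latJ (J : Ideal (𝓞 K)) : Submodule ℤ (mixedSpace K) :=
  (J.restrictScalars ℤ).map (phi K)

theorem latJ_le (J : Ideal (𝓞 K)) : latJ J ≤ mixedEmbedding.integerLattice K := by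
  rintro x ⟨a, -, rfl⟩
  exact ⟨a, rfl⟩

/-- `J ≃ latJ J`. -/
noncomputable def eJ (J : Ideal (𝓞 K)) : J ≃ latJ J :=
  ((J.restrictScalars ℤ).equivMapOfInjective (phi K) (phi_injective K)).toEquiv

theorem eJ_coe (J : Ideal (𝓞 K)) (a : J) :
    ((eJ J a : latJ J) : mixedSpace K) = mixedEmbedding K ((a : 𝓞 K) : K) := rfl

theorem map_eL_eq (J : Ideal (𝓞 K)) :
    (J.restrictScalars ℤ).map (eL K : 𝓞 K →ₗ[ℤ] mixedEmbedding.integerLattice K)
      = sub (E := mixedSpace K) (mixedEmbedding.integerLattice K) (latJ J) := by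
  ext x
  constructor
  · rintro ⟨a, ha, rfl⟩
    exact ⟨a, ha, rfl⟩
  · rintro ⟨a, ha, hax⟩
    refine ⟨a, ha, ?_⟩
    apply Subtype.ext
    exact hax

/-- The quotient of the lattices is the quotient `𝓞 K ⧸ J`. -/
noncomputable def quotEquiv (J : Ideal (𝓞 K)) :
    (𝓞 K ⧸ J.restrictScalars ℤ) ≃ₗ[ℤ]
      (mixedEmbedding.integerLattice K ⧸ sub (E := mixedSpace K) (mixedEmbedding.integerLattice K) (latJ J)) :=
  Submodule.Quotient.equiv _ _ (eL K) (map_eL_eq J)

theorem card_quot (J : Ideal (𝓞 K)) :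
    Nat.card (mixedEmbedding.integerLattice K ⧸ sub (E := mixedSpace K) (mixedEmbedding.integerLattice K) (latJ J))
      = Ideal.absNorm J := by
  rw [← Nat.card_congr (quotEquiv J).toEquiv]
  rw [Ideal.absNorm_apply, Submodule.cardQuot_apply]
  rfl

theorem finite_quot (J : Ideal (𝓞 K)) (hJ : J ≠ ⊥) :
    Finite (mixedEmbedding.integerLattice K ⧸ sub (E := mixedSpace K) (mixedEmbedding.integerLattice K) (latJ J)) := by
  apply Nat.finite_of_card_ne_zero
  rw [card_quot]
  exact fun h => hJ (Ideal.absNorm_eq_zero_iff.mp h)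

theorem finrank_integerLattice :
    finrank ℤ (mixedEmbedding.integerLattice K) = finrank ℚ K := by
  rw [← (eL K).finrank_eq, RingOfIntegers.rank]

/-- **Coset shift for an ideal lattice**: for a nonzero ideal `J` and a family `F i` on the mixed
space with a uniform bound on integers, summable on `𝓞 K`, and satisfying a shift bound with
exponent `r > [K : ℚ]`, the difference `∑_{𝓞 K} F i - N(J) ∑_J F i` is bounded uniformly in `i`. -/
theorem exists_bound_ideal (J : Ideal (𝓞 K)) (hJ : J ≠ ⊥) {ι : Type*}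
    (F : ι → mixedSpace K → ℝ) (B r : ℝ) (hr : (finrank ℚ K : ℝ) < r)
    (hbdd : ∀ i, ∀ a : 𝓞 K, |F i (mixedEmbedding K (a : K))| ≤ B)
    (hsum : ∀ i, Summable fun a : 𝓞 K => F i (mixedEmbedding K (a : K)))
    (hshift : ∀ v : mixedSpace K, ∃ C R : ℝ, 0 < R ∧ ∀ i, ∀ x : mixedSpace K, R ≤ ‖x‖ →
      |F i (x + v) - F i x| ≤ C * ‖x‖ ^ (-r)) :
    ∃ C : ℝ, ∀ i,
      |∑' a : 𝓞 K, F i (mixedEmbedding K (a : K)) -
        (Ideal.absNorm J : ℝ) * ∑' a : J, F i (mixedEmbedding K ((a : 𝓞 K) : K))| ≤ C := by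
  have hfin := finite_quot J hJ
  have hr' : (finrank ℤ (mixedEmbedding.integerLattice K) : ℝ) < r := by
    rw [finrank_integerLattice]; exact hr
  obtain ⟨C, hC⟩ := exists_bound_of_shift (E := mixedSpace K)
    (L := mixedEmbedding.integerLattice K) (L' := latJ J) (latJ_le J) F B r hr'
    (by
      rintro i ⟨x, a, rfl⟩
      exact hbdd i a)
    (fun i => by
      have := (eL K).symm.toEquiv.summable_iff.mpr (hsum i)
      refine this.congr fun x => ?_
      simp only [Function.comp_apply]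
      have h := eL_coe K ((eL K).symm x)
      rw [LinearEquiv.apply_symm_apply] at h
      rw [h]
      rfl)
    (fun v => hshift v)
  refine ⟨C, fun i => ?_⟩
  have h1 : ∑' x : mixedEmbedding.integerLattice K, F i x
      = ∑' a : 𝓞 K, F i (mixedEmbedding K (a : K)) := by
    rw [← (eL K).toEquiv.tsum_eq]
    rfl
  have h2 : ∑' y : latJ J, F i y = ∑' a : J, F i (mixedEmbedding K ((a : 𝓞 K) : K)) := by
    rw [← (eJ J).tsum_eq]
    rfl
  have := hC i
  rwa [h1, h2, card_quot] at this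
open Fermat.Agent.S14.Zeta in
/-- **Z1.e for the weights of `Zeta/Defs.lean`**, with the statements of row Z1.d and the
summability over `𝓞 K` as hypotheses. -/
theorem exists_bound_latticeSum (J : Ideal (𝓞 K)) (hJ : J ≠ ⊥)
    (hnn : ∀ (s : ℝ) (x : mixedSpace K), 0 ≤ Fs K s x)
    (hle : ∀ (a : 𝓞 K) {s : ℝ}, 0 ≤ s → Fs K s (mixedEmbedding K (a : K)) ≤ 1)
    (hshift : ∀ v : mixedSpace K, ∃ C R : ℝ, 0 < R ∧ ∀ s ∈ Set.Icc (1 : ℝ) 2,
      ∀ x : mixedSpace K, R ≤ ‖x‖ →
        |Fs K s (x + v) - Fs K s x| ≤ C * ‖x‖ ^ (-(Module.finrank ℚ K + 1 : ℝ)))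
    (hsum : ∀ s : ℝ, 1 < s → Summable fun a : 𝓞 K => Fs K s (mixedEmbedding K (a : K))) :
    ∃ C : ℝ, ∀ s ∈ Set.Ioc (1 : ℝ) 2,
      |latticeSum K ⊤ s - (Ideal.absNorm J : ℝ) * latticeSum K J s| ≤ C := by
  obtain ⟨C, hC⟩ := exists_bound_ideal J hJ
    (fun s : Set.Ioc (1 : ℝ) 2 => Fs K (s : ℝ)) 1 (Module.finrank ℚ K + 1 : ℝ) (by linarith)
    (fun s a => by
      rw [abs_of_nonneg (hnn _ _)]
      exact hle a (by linarith [s.2.1]))
    (fun s => hsum s s.2.1)
    (fun v => by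
      obtain ⟨C, R, hR, h⟩ := hshift v
      exact ⟨C, R, hR, fun s x hx => h s ⟨s.2.1.le, s.2.2⟩ x hx⟩)
  refine ⟨C, fun s hs => ?_⟩
  have h1 : latticeSum K ⊤ s = ∑' a : 𝓞 K, Fs K s (mixedEmbedding K (a : K)) := by
    unfold latticeSum
    rw [← (Submodule.topEquiv (R := 𝓞 K) (M := 𝓞 K)).toEquiv.tsum_eq]
    rfl
  rw [h1]
  exact hC ⟨s, hs⟩

end Fermat.Agent.S14.Zeta.CosetShiftInst
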