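/-
S14 / Z1.a (helper16): tent functions — partition of unity and Lipschitz bounds.
-/
import Mathlib
import Fermat.Agent.S14.Zeta.Defs

set_option autoImplicit false

namespace Fermat.Agent.S14.Zeta

theorem tent_nonneg (t : ℝ) : 0 ≤ tent t := le_max_left _ _

theorem tent_le_one (t : ℝ) : tent t ≤ 1 := by
  unfold tent
  have := abs_nonneg t
  exact max_le zero_le_one (by linarith)

theorem abs_lt_one_of_tent_ne_zero {t : ℝ} (h : tent t ≠ 0) : |t| < 1 := by
  by_contra hlt
  have hlt' : 1 ≤ |t| := not_lt.mp hlt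
  apply h
  unfold tent
  exact max_eq_left (by linarith)

theorem abs_tent_sub_le (a b : ℝ) : |tent a - tent b| ≤ |a - b| := by
  unfold tent
  have h1 : |max 0 (1 - |a|) - max 0 (1 - |b|)| ≤ |(1 - |a|) - (1 - |b|)| := by
    have := abs_max_sub_max_le_abs (1 - |a|) (1 - |b|) 0
    simpa [max_comm] using this
  have h2 : (1 - |a|) - (1 - |b|) = |b| - |a| := by ring
  have h3 : |(|b| - |a|)| ≤ |b - a| := abs_abs_sub_abs_le_abs_sub b a
  rw [h2] at h1
  rw [abs_sub_comm a b]
  exact h1.trans h3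

namespace Tent

/-- The tent function at `t + n` vanishes unless `n = -⌊t⌋` or `n = -⌊t⌋ - 1`. -/
theorem tent_add_int_eq_zero {t : ℝ} {n : ℤ} (h1 : n ≠ -⌊t⌋) (h2 : n ≠ -⌊t⌋ - 1) :
    tent (t + n) = 0 := by
  unfold tent
  apply max_eq_left
  have hfl : (⌊t⌋ : ℝ) ≤ t := Int.floor_le t
  have hfl' : t < ⌊t⌋ + 1 := Int.lt_floor_add_one t
  rcases lt_trichotomy n (-⌊t⌋ - 1) with h | h | h
  · -- n ≤ -⌊t⌋ - 2
    have : n ≤ -⌊t⌋ - 2 := by omega
    have hn : (n : ℝ) ≤ -(⌊t⌋ : ℝ) - 2 := by exact_mod_cast this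
    have : t + n ≤ -1 := by linarith
    have : 1 ≤ |t + n| := by
      rw [abs_of_nonpos (by linarith)]; linarith
    linarith
  · exact absurd h h2
  · have : -⌊t⌋ + 1 ≤ n := by omega
    have hn : -(⌊t⌋ : ℝ) + 1 ≤ (n : ℝ) := by exact_mod_cast this
    have : 1 ≤ t + n := by linarith
    have : 1 ≤ |t + n| := by
      rw [abs_of_nonneg (by linarith)]; linarith
    linarith

theorem tent_add_neg_floor (t : ℝ) : tent (t + ((-⌊t⌋ : ℤ) : ℝ)) = 1 - Int.fract t := by
  unfold tent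
  have h0 : 0 ≤ Int.fract t := Int.fract_nonneg t
  have h1 : Int.fract t < 1 := Int.fract_lt_one t
  have : t + ((-⌊t⌋ : ℤ) : ℝ) = Int.fract t := by
    rw [Int.fract]; push_cast; ring
  rw [this, abs_of_nonneg h0]
  exact max_eq_right (by linarith)

theorem tent_add_neg_floor_sub_one (t : ℝ) :
    tent (t + ((-⌊t⌋ - 1 : ℤ) : ℝ)) = Int.fract t := by
  unfold tent
  have h0 : 0 ≤ Int.fract t := Int.fract_nonneg t
  have h1 : Int.fract t < 1 := Int.fract_lt_one t
  have : t + ((-⌊t⌋ - 1 : ℤ) : ℝ) = Int.fract t - 1 := by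
    rw [Int.fract]; push_cast; ring
  rw [this, abs_of_nonpos (by linarith)]
  have : 1 - -(Int.fract t - 1) = Int.fract t := by ring
  rw [this]
  exact max_eq_right h0

/-- Finite form of the one-dimensional partition of unity. -/
theorem sum_pair_ofReal_tent_add_int (t : ℝ) :
    ∑ n ∈ ({-⌊t⌋, -⌊t⌋ - 1} : Finset ℤ), ENNReal.ofReal (tent (t + n)) = 1 := by
  have hne : (-⌊t⌋ : ℤ) ≠ -⌊t⌋ - 1 := by omega
  rw [Finset.sum_pair hne, tent_add_neg_floor, tent_add_neg_floor_sub_one]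
  have h0 : 0 ≤ Int.fract t := Int.fract_nonneg t
  have h1 : Int.fract t < 1 := Int.fract_lt_one t
  rw [← ENNReal.ofReal_add (by linarith) h0]
  simp

/-- One-dimensional partition of unity. -/
theorem tsum_ofReal_tent_add_int (t : ℝ) :
    ∑' n : ℤ, ENNReal.ofReal (tent (t + n)) = 1 := by
  rw [tsum_eq_sum (s := ({-⌊t⌋, -⌊t⌋ - 1} : Finset ℤ))]
  · exact sum_pair_ofReal_tent_add_int t
  · intro n hn
    simp only [Finset.mem_insert, Finset.mem_singleton, not_or] at hn
    rw [tent_add_int_eq_zero hn.1 hn.2]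
    simp

/-- `|∏ a_i - ∏ b_i| ≤ ∑ |a_i - b_i|` for `a_i, b_i ∈ [0,1]`. -/
theorem abs_prod_sub_prod_le_sum {κ : Type*} (s : Finset κ) (a b : κ → ℝ)
    (ha0 : ∀ i ∈ s, 0 ≤ a i) (ha1 : ∀ i ∈ s, a i ≤ 1)
    (hb0 : ∀ i ∈ s, 0 ≤ b i) (hb1 : ∀ i ∈ s, b i ≤ 1) :
    |∏ i ∈ s, a i - ∏ i ∈ s, b i| ≤ ∑ i ∈ s, |a i - b i| := by
  classical
  induction s using Finset.induction_on with
  | empty => simp
  | insert j s hj ih =>
    rw [Finset.prod_insert hj, Finset.prod_insert hj, Finset.sum_insert hj]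
    have ihs := ih (fun i hi => ha0 i (Finset.mem_insert_of_mem hi))
      (fun i hi => ha1 i (Finset.mem_insert_of_mem hi))
      (fun i hi => hb0 i (Finset.mem_insert_of_mem hi))
      (fun i hi => hb1 i (Finset.mem_insert_of_mem hi))
    set A := ∏ i ∈ s, a i
    set B := ∏ i ∈ s, b i
    have hB0 : 0 ≤ B := Finset.prod_nonneg fun i hi => hb0 i (Finset.mem_insert_of_mem hi)
    have hB1 : B ≤ 1 := Finset.prod_le_one (fun i hi => hb0 i (Finset.mem_insert_of_mem hi))
      (fun i hi => hb1 i (Finset.mem_insert_of_mem hi))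
    have haj0 := ha0 j (Finset.mem_insert_self j s)
    have haj1 := ha1 j (Finset.mem_insert_self j s)
    have key : a j * A - b j * B = a j * (A - B) + (a j - b j) * B := by ring
    rw [key]
    calc |a j * (A - B) + (a j - b j) * B|
        ≤ |a j * (A - B)| + |(a j - b j) * B| := abs_add_le _ _
      _ = |a j| * |A - B| + |a j - b j| * |B| := by rw [abs_mul, abs_mul]
      _ ≤ 1 * |A - B| + |a j - b j| * 1 := by
          apply add_le_add
          · exact mul_le_mul_of_nonneg_right (by rw [abs_of_nonneg haj0]; exact haj1) (abs_nonneg _)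
          · exact mul_le_mul_of_nonneg_left (by rw [abs_of_nonneg hB0]; exact hB1) (abs_nonneg _)
      _ = |a j - b j| + |A - B| := by ring
      _ ≤ |a j - b j| + ∑ i ∈ s, |a i - b i| := by linarith

end Tent

open Tent

variable {ι : Type*} [Fintype ι]

theorem tentPi_nonneg (c : ι → ℝ) : 0 ≤ tentPi c :=
  Finset.prod_nonneg fun i _ => tent_nonneg (c i)

theorem tentPi_le_one (c : ι → ℝ) : tentPi c ≤ 1 :=
  Finset.prod_le_one (fun i _ => tent_nonneg (c i)) (fun i _ => tent_le_one (c i))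

theorem abs_lt_one_of_tentPi_ne_zero {c : ι → ℝ} (h : tentPi c ≠ 0) (i : ι) : |c i| < 1 := by
  apply abs_lt_one_of_tent_ne_zero
  intro h0
  exact h (Finset.prod_eq_zero (Finset.mem_univ i) h0)

theorem abs_tentPi_sub_le (c c' : ι → ℝ) : |tentPi c - tentPi c'| ≤ ∑ i, |c i - c' i| := by
  unfold tentPi
  refine (abs_prod_sub_prod_le_sum Finset.univ (fun i => tent (c i)) (fun i => tent (c' i))
    (fun i _ => tent_nonneg _) (fun i _ => tent_le_one _)
    (fun i _ => tent_nonneg _) (fun i _ => tent_le_one _)).trans ?_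
  exact Finset.sum_le_sum fun i _ => abs_tent_sub_le (c i) (c' i)

theorem tsum_ofReal_tentPi_add_int (c : ι → ℝ) :
    ∑' n : ι → ℤ, ENNReal.ofReal (tentPi (fun i => c i + n i)) = 1 := by
  classical
  let t : ι → Finset ℤ := fun i => {-⌊c i⌋, -⌊c i⌋ - 1}
  have hterm : ∀ n : ι → ℤ, ENNReal.ofReal (tentPi (fun i => c i + n i)) =
      ∏ i, ENNReal.ofReal (tent (c i + n i)) := by
    intro n
    unfold tentPi
    exact ENNReal.ofReal_prod_of_nonneg fun i _ => tent_nonneg _
  rw [tsum_eq_sum (s := Fintype.piFinset t)]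
  · simp_rw [hterm]
    rw [← Finset.prod_univ_sum t (fun i (j : ℤ) => ENNReal.ofReal (tent (c i + j)))]
    exact Finset.prod_eq_one fun i _ => sum_pair_ofReal_tent_add_int (c i)
  · intro n hn
    rw [Fintype.mem_piFinset] at hn
    push Not at hn
    obtain ⟨i, hi⟩ := hn
    simp only [t, Finset.mem_insert, Finset.mem_singleton, not_or] at hi
    rw [hterm]
    exact Finset.prod_eq_zero (Finset.mem_univ i) (by rw [tent_add_int_eq_zero hi.1 hi.2]; simp)

end Fermat.Agent.S14.Zeta
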