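/-
S14 / Z1.d (lemma row 112), independent backup (helper19): the shift estimate
`|Fs s (x + v) - Fs s x| ≤ C ‖x‖ ^ (-(d + 1))` for the weighted summand of the partial zeta
functions, uniformly in `s ∈ [1, 2]`.  Self-contained (Mathlib + `Zeta/Defs` + `Zeta/Tent`).
-/
import Mathlib
import Fermat.Agent.S14.Zeta.Defs
import Fermat.Agent.S14.Zeta.Tent

set_option autoImplicit false

open NumberField NumberField.mixedEmbedding NumberField.Units NumberField.InfinitePlace
open scoped nonZeroDivisors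

namespace Fermat.Agent.S14.Zeta.LipschitzB

open Fermat.Agent.S14.Zeta Module

/-! ### Elementary real inequalities -/

theorem abs_log_sub_log_le {a b m : ℝ} (hm : 0 < m) (ha : m ≤ a) (hb : m ≤ b) :
    |Real.log a - Real.log b| ≤ |a - b| / m := by
  have key : ∀ {a b : ℝ}, m ≤ a → m ≤ b → b ≤ a → |Real.log a - Real.log b| ≤ |a - b| / m := by
    intro a b ha hb hab
    have ha0 : 0 < a := lt_of_lt_of_le hm ha
    have hb0 : 0 < b := lt_of_lt_of_le hm hb
    have h1 : 0 ≤ Real.log a - Real.log b := sub_nonneg.mpr (Real.log_le_log hb0 hab)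
    rw [abs_of_nonneg h1, abs_of_nonneg (sub_nonneg.mpr hab)]
    have h2 : Real.log a - Real.log b = Real.log (a / b) := (Real.log_div ha0.ne' hb0.ne').symm
    have h3 : Real.log (a / b) ≤ a / b - 1 := Real.log_le_sub_one_of_pos (div_pos ha0 hb0)
    have h4 : a / b - 1 = (a - b) / b := by field_simp
    rw [h2]
    refine h3.trans ?_
    rw [h4]
    exact div_le_div_of_nonneg_left (sub_nonneg.mpr hab) hm hb
  rcases le_total b a with h | h
  · exact key ha hb h
  · have := key hb ha h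
    rwa [abs_sub_comm, abs_sub_comm b a] at this

theorem abs_exp_sub_exp_le (a b : ℝ) :
    |Real.exp a - Real.exp b| ≤ max (Real.exp a) (Real.exp b) * |a - b| := by
  have key : ∀ {a b : ℝ}, b ≤ a → |Real.exp a - Real.exp b| ≤ Real.exp a * |a - b| := by
    intro a b hab
    rw [abs_of_nonneg (sub_nonneg.mpr (Real.exp_le_exp.mpr hab)), abs_of_nonneg (sub_nonneg.mpr hab)]
    have h1 : Real.exp b = Real.exp a * Real.exp (b - a) := by
      rw [← Real.exp_add]; congr 1; ring
    have h2 : b - a + 1 ≤ Real.exp (b - a) := Real.add_one_le_exp _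
    rw [h1]
    have h3 : Real.exp a - Real.exp a * Real.exp (b - a) = Real.exp a * (1 - Real.exp (b - a)) := by
      ring
    rw [h3]
    apply mul_le_mul_of_nonneg_left _ (Real.exp_pos a).le
    linarith
  rcases le_total b a with h | h
  · exact (key h).trans (mul_le_mul_of_nonneg_right (le_max_left _ _) (abs_nonneg _))
  · have := key h
    rw [abs_sub_comm, abs_sub_comm b a] at this
    exact this.trans (mul_le_mul_of_nonneg_right (le_max_right _ _) (abs_nonneg _))

variable {K : Type*} [Field K] [NumberField K]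

/-! ### Basic facts on `normAtPlace` -/

open scoped Classical in
theorem normAtPlace_le_norm (w : InfinitePlace K) (x : mixedSpace K) :
    normAtPlace w x ≤ ‖x‖ := by
  rw [norm_eq_sup'_normAtPlace]
  exact Finset.le_sup' (fun w => normAtPlace w x) (Finset.mem_univ w)

open scoped Classical in
theorem exists_normAtPlace_eq_norm (x : mixedSpace K) :
    ∃ w : InfinitePlace K, normAtPlace w x = ‖x‖ := by
  obtain ⟨w, -, hw⟩ := Finset.exists_mem_eq_sup' Finset.univ_nonempty
    (fun w : InfinitePlace K => normAtPlace w x)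
  exact ⟨w, by rw [norm_eq_sup'_normAtPlace, hw]⟩

omit [NumberField K] in
theorem abs_normAtPlace_sub_le (w : InfinitePlace K) (x y : mixedSpace K) :
    |normAtPlace w x - normAtPlace w y| ≤ normAtPlace w (x - y) := by
  rw [abs_sub_le_iff]
  constructor
  · have := normAtPlace_add_le w (x - y) y
    rw [sub_add_cancel] at this
    linarith
  · have := normAtPlace_add_le w (y - x) x
    rw [sub_add_cancel] at this
    have h2 : normAtPlace w (y - x) = normAtPlace w (x - y) := by
      rw [← normAtPlace_neg, neg_sub]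
    linarith

theorem log_norm_eq_sum {x : mixedSpace K} (hx : ∀ w, 0 < normAtPlace w x) :
    Real.log (mixedEmbedding.norm x) = ∑ w, (mult w : ℝ) * Real.log (normAtPlace w x) := by
  rw [mixedEmbedding.norm_apply, Real.log_prod (fun w _ => pow_ne_zero _ (hx w).ne')]
  exact Finset.sum_congr rfl fun w _ => Real.log_pow _ _

theorem mult_le_finrank (w : InfinitePlace K) : (mult w : ℝ) ≤ finrank ℚ K := by
  rw [← sum_mult_eq (K := K)]
  push_cast
  exact Finset.single_le_sum (f := fun w : InfinitePlace K => (mult w : ℝ))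
    (fun w _ => Nat.cast_nonneg _) (Finset.mem_univ w)

theorem finrank_pos' : (0 : ℝ) < finrank ℚ K := by
  exact_mod_cast (Module.finrank_pos (R := ℚ) (M := K))


/-! ### The coordinate maps are bounded -/

variable (K) in
open scoped Classical in
theorem exists_bound_logCoord :
    ∃ C : ℝ, 0 ≤ C ∧ ∀ y : dirichletUnitTheorem.logSpace K, ‖logCoord K y‖ ≤ C * ‖y‖ := by
  let f : dirichletUnitTheorem.logSpace K →L[ℝ] (Fin (NumberField.Units.rank K) → ℝ) :=
    LinearMap.toContinuousLinearMap ((logCoord K).toLinearMap)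
  exact ⟨‖f‖, norm_nonneg _, fun y => f.le_opNorm y⟩

variable (K) in
open scoped Classical in
theorem exists_bound_logCoord_symm :
    ∃ C : ℝ, 0 ≤ C ∧ ∀ c : Fin (NumberField.Units.rank K) → ℝ,
      ‖(logCoord K).symm c‖ ≤ C * ‖c‖ := by
  let f : (Fin (NumberField.Units.rank K) → ℝ) →L[ℝ] dirichletUnitTheorem.logSpace K :=
    LinearMap.toContinuousLinearMap ((logCoord K).symm.toLinearMap)
  exact ⟨‖f‖, norm_nonneg _, fun y => f.le_opNorm y⟩

/-! ### Balanced points -/

theorem norm_ne_zero_of_weight_ne_zero {z : mixedSpace K} (hz : weight K z ≠ 0) :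
    mixedEmbedding.norm z ≠ 0 := by
  intro h0
  apply hz
  rw [weight, if_pos h0]

theorem weight_eq_of_norm_ne_zero {z : mixedSpace K} (hz : mixedEmbedding.norm z ≠ 0) :
    weight K z = tentPi (logCoord K (logMap z)) := by
  rw [weight, if_neg hz, weight0]

theorem normAtPlace_pos_of_norm_ne_zero {z : mixedSpace K} (hz : mixedEmbedding.norm z ≠ 0)
    (w : InfinitePlace K) : 0 < normAtPlace w z :=
  lt_of_le_of_ne (normAtPlace_nonneg w z) (Ne.symm (mixedEmbedding.norm_ne_zero_iff.mp hz w))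

variable (K) in
open scoped Classical in
/-- Points of nonzero weight are balanced: all their coordinates are comparable to their norm. -/
theorem exists_kappa : ∃ κ : ℝ, 0 < κ ∧ κ ≤ 1 ∧
    ∀ z : mixedSpace K, weight K z ≠ 0 → ∀ w, κ * ‖z‖ ≤ normAtPlace w z := by
  obtain ⟨M₀, hM₀, hM⟩ := exists_bound_logCoord_symm K
  set n : ℝ := (Fintype.card (InfinitePlace K) : ℝ) with hn
  have hn0 : 0 ≤ n := Nat.cast_nonneg _
  set M : ℝ := n * M₀ + M₀ with hMdef
  have hM0 : 0 ≤ M := by positivity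
  refine ⟨Real.exp (-(2 * M)), Real.exp_pos _, ?_, ?_⟩
  · rw [← Real.exp_zero]
    exact Real.exp_le_exp.mpr (by linarith)
  · intro z hz w
    have hN : mixedEmbedding.norm z ≠ 0 := norm_ne_zero_of_weight_ne_zero hz
    have hpos : ∀ w, 0 < normAtPlace w z := normAtPlace_pos_of_norm_ne_zero hN
    have hw0 : tentPi (logCoord K (logMap z)) ≠ 0 := by
      rwa [weight_eq_of_norm_ne_zero hN] at hz
    have hc : ∀ i, |logCoord K (logMap z) i| < 1 := abs_lt_one_of_tentPi_ne_zero hw0
    have hcn : ‖logCoord K (logMap z)‖ ≤ 1 :=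
      (pi_norm_le_iff_of_nonneg zero_le_one).mpr
        (fun i => by rw [Real.norm_eq_abs]; exact (hc i).le)
    have hlm : ‖logMap z‖ ≤ M₀ := by
      have := hM (logCoord K (logMap z))
      rw [LinearEquiv.symm_apply_apply] at this
      calc ‖logMap z‖ ≤ M₀ * ‖logCoord K (logMap z)‖ := this
        _ ≤ M₀ * 1 := by gcongr
        _ = M₀ := mul_one _
    -- deviations of the logarithms from their weighted mean
    set L : ℝ := Real.log (mixedEmbedding.norm z) * (finrank ℚ K : ℝ)⁻¹ with hL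
    set t : InfinitePlace K → ℝ := fun w => Real.log (normAtPlace w z) - L with ht
    have ht1 : ∀ w : {w : InfinitePlace K // w ≠ dirichletUnitTheorem.w₀},
        |(mult w.val : ℝ) * t w.val| ≤ M₀ := by
      intro w
      have h1 : |logMap z w| ≤ ‖logMap z‖ := by
        rw [← Real.norm_eq_abs]; exact norm_le_pi_norm _ w
      rw [logMap_apply] at h1
      exact h1.trans hlm
    have habs : ∀ w, |t w| ≤ |(mult w : ℝ) * t w| := by
      intro w
      rw [abs_mul, Nat.abs_cast]
      exact le_mul_of_one_le_left (abs_nonneg _) one_le_mult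
    have hsum : ∑ w, (mult w : ℝ) * t w = 0 := by
      simp only [ht, mul_sub, Finset.sum_sub_distrib]
      rw [← log_norm_eq_sum hpos, ← Finset.sum_mul, ← Nat.cast_sum, sum_mult_eq, hL]
      have hd : (finrank ℚ K : ℝ) ≠ 0 := (finrank_pos' (K := K)).ne'
      field_simp
      ring
    have hw0t : |(mult (dirichletUnitTheorem.w₀ : InfinitePlace K) : ℝ) *
        t dirichletUnitTheorem.w₀| ≤ n * M₀ := by
      rw [Fintype.sum_eq_add_sum_subtype_ne _ (dirichletUnitTheorem.w₀ : InfinitePlace K)] at hsum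
      have h1 : (mult (dirichletUnitTheorem.w₀ : InfinitePlace K) : ℝ) * t dirichletUnitTheorem.w₀
          = - ∑ w : {w : InfinitePlace K // w ≠ dirichletUnitTheorem.w₀},
              (mult w.val : ℝ) * t w.val := by linarith
      rw [h1, abs_neg]
      calc |∑ w : {w : InfinitePlace K // w ≠ dirichletUnitTheorem.w₀},
              (mult w.val : ℝ) * t w.val|
          ≤ ∑ w : {w : InfinitePlace K // w ≠ dirichletUnitTheorem.w₀},
              |(mult w.val : ℝ) * t w.val| := Finset.abs_sum_le_sum_abs _ _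
        _ ≤ ∑ _w : {w : InfinitePlace K // w ≠ dirichletUnitTheorem.w₀}, M₀ :=
            Finset.sum_le_sum (fun w _ => ht1 w)
        _ = (Fintype.card {w : InfinitePlace K // w ≠ dirichletUnitTheorem.w₀} : ℝ) * M₀ := by
            rw [Finset.sum_const, Finset.card_univ, nsmul_eq_mul]
        _ ≤ n * M₀ := by
            have hcard : Fintype.card {w : InfinitePlace K // w ≠ dirichletUnitTheorem.w₀}
                ≤ Fintype.card (InfinitePlace K) := Fintype.card_subtype_le _
            have hcard' : (Fintype.card {w : InfinitePlace K // w ≠ dirichletUnitTheorem.w₀} : ℝ)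
                ≤ n := by rw [hn]; exact_mod_cast hcard
            exact mul_le_mul_of_nonneg_right hcard' hM₀
    have htM : ∀ w, |t w| ≤ M := by
      intro w
      by_cases hw : w = dirichletUnitTheorem.w₀
      · rw [hw]
        exact ((habs _).trans hw0t).trans (by linarith)
      · exact ((habs w).trans (ht1 ⟨w, hw⟩)).trans (by nlinarith)
    obtain ⟨w', hw'⟩ := exists_normAtPlace_eq_norm z
    have h1 := abs_le.mp (htM w)
    have h2 := abs_le.mp (htM w')
    have h3 : Real.log (normAtPlace w' z) - 2 * M ≤ Real.log (normAtPlace w z) := by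
      simp only [ht] at h1 h2
      linarith
    calc Real.exp (-(2 * M)) * ‖z‖
        = Real.exp (Real.log (normAtPlace w' z) - 2 * M) := by
          rw [← hw', sub_eq_add_neg, Real.exp_add, Real.exp_log (hpos w'), mul_comm]
      _ ≤ Real.exp (Real.log (normAtPlace w z)) := Real.exp_le_exp.mpr h3
      _ = normAtPlace w z := Real.exp_log (hpos w)


/-! ### Estimates for a pair of balanced points -/

section pair

variable {x y : mixedSpace K} {m δ : ℝ}

omit [NumberField K] in
theorem abs_log_normAtPlace_sub_le (hm : 0 < m) (hx : ∀ w, m ≤ normAtPlace w x)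
    (hy : ∀ w, m ≤ normAtPlace w y) (hδ : ∀ w, |normAtPlace w x - normAtPlace w y| ≤ δ)
    (w : InfinitePlace K) :
    |Real.log (normAtPlace w x) - Real.log (normAtPlace w y)| ≤ δ / m :=
  (abs_log_sub_log_le hm (hx w) (hy w)).trans (div_le_div_of_nonneg_right (hδ w) hm.le)

theorem norm_ne_zero_of_le (hm : 0 < m) (hx : ∀ w, m ≤ normAtPlace w x) :
    mixedEmbedding.norm x ≠ 0 :=
  mixedEmbedding.norm_ne_zero_iff.mpr fun w => (hm.trans_le (hx w)).ne'

theorem abs_log_norm_sub_le (hm : 0 < m) (hx : ∀ w, m ≤ normAtPlace w x)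
    (hy : ∀ w, m ≤ normAtPlace w y) (hδ : ∀ w, |normAtPlace w x - normAtPlace w y| ≤ δ) :
    |Real.log (mixedEmbedding.norm x) - Real.log (mixedEmbedding.norm y)|
      ≤ finrank ℚ K * (δ / m) := by
  rw [log_norm_eq_sum (fun w => hm.trans_le (hx w)), log_norm_eq_sum (fun w => hm.trans_le (hy w)),
    ← Finset.sum_sub_distrib]
  calc |∑ w, ((mult w : ℝ) * Real.log (normAtPlace w x) - (mult w : ℝ) * Real.log (normAtPlace w y))|
      ≤ ∑ w, |(mult w : ℝ) * Real.log (normAtPlace w x) - (mult w : ℝ) * Real.log (normAtPlace w y)| :=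
        Finset.abs_sum_le_sum_abs _ _
    _ ≤ ∑ w : InfinitePlace K, (mult w : ℝ) * (δ / m) := by
        apply Finset.sum_le_sum
        intro w _
        rw [← mul_sub, abs_mul, Nat.abs_cast]
        exact mul_le_mul_of_nonneg_left (abs_log_normAtPlace_sub_le hm hx hy hδ w)
          (Nat.cast_nonneg _)
    _ = finrank ℚ K * (δ / m) := by
        rw [← Finset.sum_mul, ← Nat.cast_sum, sum_mult_eq]

theorem abs_logMap_sub_le (hm : 0 < m) (hx : ∀ w, m ≤ normAtPlace w x)
    (hy : ∀ w, m ≤ normAtPlace w y) (hδ : ∀ w, |normAtPlace w x - normAtPlace w y| ≤ δ)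
    (w : {w : InfinitePlace K // w ≠ dirichletUnitTheorem.w₀}) :
    |logMap x w - logMap y w| ≤ 2 * finrank ℚ K * (δ / m) := by
  rw [logMap_apply, logMap_apply, ← mul_sub]
  have e : (Real.log (normAtPlace w.val x) -
        Real.log (mixedEmbedding.norm x) * (finrank ℚ K : ℝ)⁻¹) -
      (Real.log (normAtPlace w.val y) - Real.log (mixedEmbedding.norm y) * (finrank ℚ K : ℝ)⁻¹)
      = (Real.log (normAtPlace w.val x) - Real.log (normAtPlace w.val y)) -
        (Real.log (mixedEmbedding.norm x) - Real.log (mixedEmbedding.norm y)) *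
          (finrank ℚ K : ℝ)⁻¹ := by ring
  rw [e, abs_mul, Nat.abs_cast]
  have h1 := abs_log_normAtPlace_sub_le hm hx hy hδ w.val
  have h2 := abs_log_norm_sub_le hm hx hy hδ
  have hd : (0 : ℝ) < finrank ℚ K := finrank_pos'
  have h3 : |(Real.log (mixedEmbedding.norm x) - Real.log (mixedEmbedding.norm y)) *
      (finrank ℚ K : ℝ)⁻¹| ≤ δ / m := by
    rw [abs_mul, abs_inv, Nat.abs_cast]
    calc |Real.log (mixedEmbedding.norm x) - Real.log (mixedEmbedding.norm y)| *
          (finrank ℚ K : ℝ)⁻¹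
        ≤ ((finrank ℚ K : ℝ) * (δ / m)) * (finrank ℚ K : ℝ)⁻¹ :=
          mul_le_mul_of_nonneg_right h2 (inv_nonneg.mpr hd.le)
      _ = δ / m := by field_simp
  calc (mult w.val : ℝ) * |(Real.log (normAtPlace w.val x) - Real.log (normAtPlace w.val y)) -
          (Real.log (mixedEmbedding.norm x) - Real.log (mixedEmbedding.norm y)) *
            (finrank ℚ K : ℝ)⁻¹|
      ≤ (finrank ℚ K : ℝ) * (δ / m + δ / m) :=
        mul_le_mul (mult_le_finrank w.val) ((abs_sub _ _).trans (add_le_add h1 h3))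
          (abs_nonneg _) hd.le
    _ = 2 * finrank ℚ K * (δ / m) := by ring

end pair

variable (K) in
/-- The weight is Lipschitz in logarithmic coordinates. -/
theorem exists_weight_lipschitz : ∃ C3 : ℝ, 0 ≤ C3 ∧ ∀ (x y : mixedSpace K) (m δ : ℝ), 0 < m →
    (∀ w, m ≤ normAtPlace w x) → (∀ w, m ≤ normAtPlace w y) →
    (∀ w, |normAtPlace w x - normAtPlace w y| ≤ δ) →
    |weight K x - weight K y| ≤ C3 * (δ / m) := by
  classical
  obtain ⟨C, hC0, hC⟩ := exists_bound_logCoord K
  have hd : (0 : ℝ) < finrank ℚ K := finrank_pos'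
  refine ⟨(NumberField.Units.rank K : ℝ) * (C * (2 * finrank ℚ K)), by positivity, ?_⟩
  intro x y m δ hm hx hy hδ
  have hδ0 : 0 ≤ δ := (abs_nonneg _).trans (hδ dirichletUnitTheorem.w₀)
  have hq : 0 ≤ δ / m := div_nonneg hδ0 hm.le
  rw [weight_eq_of_norm_ne_zero (norm_ne_zero_of_le hm hx),
    weight_eq_of_norm_ne_zero (norm_ne_zero_of_le hm hy)]
  have h1 : ‖logMap x - logMap y‖ ≤ 2 * finrank ℚ K * (δ / m) := by
    refine (pi_norm_le_iff_of_nonneg (by positivity)).mpr fun w => ?_
    rw [Pi.sub_apply, Real.norm_eq_abs]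
    exact abs_logMap_sub_le hm hx hy hδ w
  have h2 : ‖logCoord K (logMap x) - logCoord K (logMap y)‖ ≤ C * (2 * finrank ℚ K * (δ / m)) := by
    rw [← map_sub]
    exact (hC _).trans (mul_le_mul_of_nonneg_left h1 hC0)
  calc |tentPi (logCoord K (logMap x)) - tentPi (logCoord K (logMap y))|
      ≤ ∑ i, |logCoord K (logMap x) i - logCoord K (logMap y) i| := abs_tentPi_sub_le _ _
    _ ≤ ∑ _i : Fin (NumberField.Units.rank K), C * (2 * finrank ℚ K * (δ / m)) := by
        apply Finset.sum_le_sum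
        intro i _
        have := norm_le_pi_norm (logCoord K (logMap x) - logCoord K (logMap y)) i
        rw [Pi.sub_apply, Real.norm_eq_abs] at this
        exact this.trans h2
    _ = (NumberField.Units.rank K : ℝ) * (C * (2 * finrank ℚ K)) * (δ / m) := by
        rw [Finset.sum_const, Finset.card_univ, Fintype.card_fin, nsmul_eq_mul]
        ring


/-! ### The three statements of row Z1.d -/

variable (K)

theorem weight_nonneg' (x : mixedSpace K) : 0 ≤ weight K x := by
  rw [weight]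
  split_ifs
  · exact le_rfl
  · exact tentPi_nonneg _

theorem weight_le_one' (x : mixedSpace K) : weight K x ≤ 1 := by
  rw [weight]
  split_ifs
  · exact zero_le_one
  · exact tentPi_le_one _

theorem Fs_nonneg (s : ℝ) (x : mixedSpace K) : 0 ≤ Fs K s x :=
  mul_nonneg (weight_nonneg' K x) (Real.rpow_nonneg (mixedEmbedding.norm_nonneg x) _)

theorem Fs_integer_le_one (a : 𝓞 K) {s : ℝ} (hs : 0 ≤ s) :
    Fs K s (mixedEmbedding K (a : K)) ≤ 1 := by
  rcases eq_or_ne a 0 with rfl | ha
  · have h0 : mixedEmbedding.norm (mixedEmbedding K ((0 : 𝓞 K) : K)) = 0 := by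
      simp
    rw [Fs, weight, if_pos h0, zero_mul]
    exact zero_le_one
  · have h1 : (1 : ℝ) ≤ mixedEmbedding.norm (mixedEmbedding K (a : K)) := by
      rw [norm_eq_norm, ← Algebra.coe_norm_int]
      have hne : Algebra.norm ℤ a ≠ 0 := by
        rwa [ne_eq, Algebra.norm_eq_zero_iff]
      have : (1 : ℤ) ≤ |Algebra.norm ℤ a| := Int.one_le_abs hne
      have h2 : ((1 : ℤ) : ℝ) ≤ ((|Algebra.norm ℤ a| : ℤ) : ℝ) := by exact_mod_cast this
      simpa using h2
    have h2 : (mixedEmbedding.norm (mixedEmbedding K (a : K))) ^ (-s) ≤ 1 :=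
      Real.rpow_le_one_of_one_le_of_nonpos h1 (by linarith)
    rw [Fs]
    calc weight K (mixedEmbedding K (a : K)) * (mixedEmbedding.norm (mixedEmbedding K (a : K))) ^ (-s)
        ≤ 1 * 1 := mul_le_mul (weight_le_one' K _) h2
          (Real.rpow_nonneg (mixedEmbedding.norm_nonneg _) _) zero_le_one
      _ = 1 := one_mul 1

variable {K} in
open scoped Classical in
theorem abs_normAtPlace_add_sub_le (w : InfinitePlace K) (x v : mixedSpace K) :
    |normAtPlace w (x + v) - normAtPlace w x| ≤ ‖v‖ := by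
  have h := abs_normAtPlace_sub_le w (x + v) x
  rw [add_sub_cancel_left] at h
  exact h.trans (normAtPlace_le_norm w v)

variable {K} in
theorem pow_le_norm {z : mixedSpace K} {m : ℝ} (hm : 0 < m) (hz : ∀ w, m ≤ normAtPlace w z) :
    m ^ finrank ℚ K ≤ mixedEmbedding.norm z := by
  rw [mixedEmbedding.norm_apply, ← sum_mult_eq (K := K), ← Finset.prod_pow_eq_pow_sum]
  exact Finset.prod_le_prod (fun w _ => pow_nonneg hm.le _)
    (fun w _ => pow_le_pow_left₀ hm.le (hz w) _)

open scoped Classical in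
theorem exists_Fs_shift_bound (v : mixedSpace K) : ∃ C R : ℝ, 0 < R ∧
    ∀ s ∈ Set.Icc (1 : ℝ) 2, ∀ x : mixedSpace K, R ≤ ‖x‖ →
      |Fs K s (x + v) - Fs K s x| ≤ C * ‖x‖ ^ (-(Module.finrank ℚ K + 1 : ℝ)) := by
  obtain ⟨κ, hκ0, hκ1, hκ⟩ := exists_kappa K
  obtain ⟨C3, hC30, hC3⟩ := exists_weight_lipschitz K
  set d : ℕ := finrank ℚ K with hd
  have hdpos : (0 : ℝ) < d := finrank_pos'
  set c : ℝ := κ / 4 with hc
  have hc0 : 0 < c := by positivity
  have hc1 : c ≤ 1 := by rw [hc]; linarith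
  have hcd0 : 0 < c ^ d := pow_pos hc0 d
  have hcd1 : c ^ d ≤ 1 := pow_le_one₀ hc0.le hc1
  refine ⟨((c ^ d) ^ (-2 : ℝ)) * (‖v‖ / c) * (C3 + 2 * d), 4 * ‖v‖ / κ + 1, by positivity, ?_⟩
  intro s hs x hxR
  obtain ⟨hs1, hs2⟩ := hs
  have h4 : 0 ≤ 4 * ‖v‖ / κ := by positivity
  have hx1 : 1 ≤ ‖x‖ := by linarith
  have hx0 : 0 < ‖x‖ := by linarith
  have hv : ‖v‖ ≤ c * ‖x‖ := by
    have h5 : 4 * ‖v‖ / κ ≤ ‖x‖ := by linarith
    rw [div_le_iff₀ hκ0] at h5
    rw [hc]
    linarith
  have hCnn : 0 ≤ ((c ^ d) ^ (-2 : ℝ)) * (‖v‖ / c) * (C3 + 2 * d) := by positivity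
  have hrp : 0 ≤ ‖x‖ ^ (-((d : ℝ) + 1)) := Real.rpow_nonneg hx0.le _
  by_cases hw : weight K x = 0 ∧ weight K (x + v) = 0
  · rw [Fs, Fs, hw.1, hw.2, zero_mul, zero_mul, sub_zero, abs_zero]
    exact mul_nonneg hCnn hrp
  · set m : ℝ := c * ‖x‖ with hmdef
    have hm : 0 < m := mul_pos hc0 hx0
    have hδ : ∀ w, |normAtPlace w (x + v) - normAtPlace w x| ≤ ‖v‖ :=
      fun w => abs_normAtPlace_add_sub_le w x v
    have hm4 : 4 * m = κ * ‖x‖ := by rw [hmdef, hc]; ring
    have hvm : ‖v‖ ≤ m := hv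
    have hbal : (∀ w, m ≤ normAtPlace w (x + v)) ∧ (∀ w, m ≤ normAtPlace w x) := by
      rw [not_and_or] at hw
      rcases hw with h | h
      · have h1 := hκ x h
        have h2 : ∀ w, 4 * m ≤ normAtPlace w x := fun w => by
          have := h1 w
          linarith
        refine ⟨fun w => ?_, fun w => by linarith [h2 w]⟩
        have h3 := abs_le.mp (hδ w)
        linarith [h2 w, h3.1]
      · have h1 := hκ (x + v) h
        have h2 : ‖x‖ - ‖v‖ ≤ ‖x + v‖ := by
          have := norm_sub_le (x + v) v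
          rw [add_sub_cancel_right] at this
          linarith
        have h3 : ∀ w, 3 * m ≤ normAtPlace w (x + v) := fun w => by
          have h4 := h1 w
          have h5 : κ * (‖x‖ - ‖v‖) ≤ κ * ‖x + v‖ := mul_le_mul_of_nonneg_left h2 hκ0.le
          have h6 : κ * ‖v‖ ≤ ‖v‖ := by nlinarith [norm_nonneg v]
          have h7 : κ * (‖x‖ - ‖v‖) = κ * ‖x‖ - κ * ‖v‖ := by ring
          linarith
        refine ⟨fun w => by linarith [h3 w], fun w => ?_⟩
        have h4 := abs_le.mp (hδ w)
        linarith [h3 w, h4.2]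
    obtain ⟨hb1, hb0⟩ := hbal
    have hq : 0 ≤ ‖v‖ / m := div_nonneg (norm_nonneg v) hm.le
    -- the weights
    have hW := hC3 (x + v) x m ‖v‖ hm hb1 hb0 hδ
    -- the logarithms of the norms
    have hAB := abs_log_norm_sub_le hm hb1 hb0 hδ
    have hN1 : 0 < mixedEmbedding.norm (x + v) :=
      lt_of_le_of_ne (mixedEmbedding.norm_nonneg _) (Ne.symm (norm_ne_zero_of_le hm hb1))
    have hN0 : 0 < mixedEmbedding.norm x :=
      lt_of_le_of_ne (mixedEmbedding.norm_nonneg _) (Ne.symm (norm_ne_zero_of_le hm hb0))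
    -- the common bound for `N ^ (-s)`
    set Bd : ℝ := (c ^ d) ^ (-2 : ℝ) * ‖x‖ ^ (-(d : ℝ)) with hBd
    have hBd0 : 0 ≤ Bd := by positivity
    have hbound : ∀ z : mixedSpace K, (∀ w, m ≤ normAtPlace w z) →
        (mixedEmbedding.norm z) ^ (-s) ≤ Bd := by
      intro z hz
      have h1 : m ^ d ≤ mixedEmbedding.norm z := pow_le_norm hm hz
      have h2 : (mixedEmbedding.norm z) ^ (-s) ≤ (m ^ d) ^ (-s) :=
        (Real.rpow_le_rpow_iff_of_neg ((pow_pos hm d).trans_le h1) (pow_pos hm d)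
          (by linarith)).mpr h1
      have h3 : (m ^ d) ^ (-s) = (c ^ d) ^ (-s) * (‖x‖ ^ d) ^ (-s) := by
        rw [hmdef, mul_pow, Real.mul_rpow hcd0.le (pow_nonneg hx0.le d)]
      have h4 : (c ^ d) ^ (-s) ≤ (c ^ d) ^ (-2 : ℝ) :=
        Real.rpow_le_rpow_of_exponent_ge hcd0 hcd1 (by linarith)
      have h5 : (‖x‖ ^ d) ^ (-s) ≤ (‖x‖ ^ d) ^ (-1 : ℝ) :=
        Real.rpow_le_rpow_of_exponent_le (one_le_pow₀ hx1) (by linarith)
      have h6 : (‖x‖ ^ d) ^ (-1 : ℝ) = ‖x‖ ^ (-(d : ℝ)) := by
        rw [Real.rpow_neg_one, Real.rpow_neg hx0.le, Real.rpow_natCast]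
      rw [h3] at h2
      refine h2.trans ?_
      rw [hBd, ← h6]
      exact mul_le_mul h4 h5 (Real.rpow_nonneg (pow_nonneg hx0.le d) _)
        (Real.rpow_nonneg hcd0.le _)
    have hP1 := hbound (x + v) hb1
    have hP0 := hbound x hb0
    have hPdiff : |(mixedEmbedding.norm (x + v)) ^ (-s) - (mixedEmbedding.norm x) ^ (-s)|
        ≤ Bd * (2 * ((d : ℝ) * (‖v‖ / m))) := by
      rw [Real.rpow_def_of_pos hN1, Real.rpow_def_of_pos hN0]
      refine (abs_exp_sub_exp_le _ _).trans ?_
      have h1 : max (Real.exp (Real.log (mixedEmbedding.norm (x + v)) * -s))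
          (Real.exp (Real.log (mixedEmbedding.norm x) * -s)) ≤ Bd := by
        rw [← Real.rpow_def_of_pos hN1, ← Real.rpow_def_of_pos hN0]
        exact max_le hP1 hP0
      have h2 : |Real.log (mixedEmbedding.norm (x + v)) * -s -
          Real.log (mixedEmbedding.norm x) * -s| ≤ 2 * ((d : ℝ) * (‖v‖ / m)) := by
        rw [← sub_mul, abs_mul, abs_neg, abs_of_nonneg (by linarith : (0 : ℝ) ≤ s), mul_comm]
        exact mul_le_mul hs2 hAB (abs_nonneg _) (by norm_num)
      exact mul_le_mul h1 h2 (abs_nonneg _) hBd0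
    -- combine
    have hsplit : Fs K s (x + v) - Fs K s x =
        (weight K (x + v) - weight K x) * (mixedEmbedding.norm (x + v)) ^ (-s) +
          weight K x * ((mixedEmbedding.norm (x + v)) ^ (-s) - (mixedEmbedding.norm x) ^ (-s)) := by
      rw [Fs, Fs]; ring
    have hfinal : |Fs K s (x + v) - Fs K s x| ≤ Bd * (‖v‖ / m) * (C3 + 2 * d) := by
      rw [hsplit]
      refine (abs_add_le _ _).trans ?_
      rw [abs_mul, abs_mul, abs_of_nonneg (weight_nonneg' K x),
        abs_of_nonneg (Real.rpow_nonneg hN1.le _)]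
      have e1 : |weight K (x + v) - weight K x| * (mixedEmbedding.norm (x + v)) ^ (-s)
          ≤ (C3 * (‖v‖ / m)) * Bd :=
        mul_le_mul hW hP1 (Real.rpow_nonneg hN1.le _) (mul_nonneg hC30 hq)
      have e2 : weight K x *
          |(mixedEmbedding.norm (x + v)) ^ (-s) - (mixedEmbedding.norm x) ^ (-s)|
          ≤ 1 * (Bd * (2 * ((d : ℝ) * (‖v‖ / m)))) :=
        mul_le_mul (weight_le_one' K x) hPdiff (abs_nonneg _) zero_le_one
      calc _ ≤ (C3 * (‖v‖ / m)) * Bd + 1 * (Bd * (2 * ((d : ℝ) * (‖v‖ / m)))) := add_le_add e1 e2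
        _ = Bd * (‖v‖ / m) * (C3 + 2 * d) := by ring
    refine hfinal.trans (le_of_eq ?_)
    have e3 : ‖x‖ ^ (-((d : ℝ) + 1)) = ‖x‖ ^ (-(d : ℝ)) * ‖x‖⁻¹ := by
      rw [neg_add, Real.rpow_add hx0, Real.rpow_neg_one]
    rw [e3, hBd, hmdef]
    field_simp

end Fermat.Agent.S14.Zeta.LipschitzB
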